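import Fermat.Agent.IndefiniteUnimodular.Split
import Fermat.Agent.Root.SummaryEightLattice

/-!
# The classification

Rank, signature and parity determine an indefinite unimodular form. For even forms
`(0 1; 1 1) ⊕ F` is known from the odd case, and the passage to the vectors of even norm recovers
`(0 1; 1 0) ⊕ F`.
-/

set_option autoImplicit false
set_option linter.unusedSectionVars false

noncomputable section

namespace FA.IndefiniteUnimodular

open Matrix

variable {ι κ μ : Type*} [Fintype ι] [DecidableEq ι] [Fintype κ] [DecidableEq κ]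
  [Fintype μ] [DecidableEq μ]

/-- The form `x₁² + ⋯ + x_r² - y₁² - ⋯ - y_s²`. -/
def signForm (r s : ℕ) : Matrix (Fin r ⊕ Fin s) (Fin r ⊕ Fin s) ℤ :=
  diagonal (Sum.elim (fun _ => 1) fun _ => -1)

theorem iso_signForm {A : Matrix ι ι ℤ} (h : SignDiag A) :
    Iso A (signForm (posIndex A) (negIndex A)) := by
  obtain ⟨m, d, hd, he⟩ := h
  have hr : Fintype.card {i // d i = 1} = posIndex A := by
    rw [he.posIndex_eq, (ratDiag_diagonal d).posIndex_eq, Fintype.card_subtype]
    refine congrArg Finset.card (Finset.filter_congr fun i _ => ?_)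
    rcases hd i with e | e <;> simp [e]
  have hs : Fintype.card {i // ¬ d i = 1} = negIndex A := by
    rw [he.negIndex_eq, (ratDiag_diagonal d).negIndex_eq, Fintype.card_subtype]
    refine congrArg Finset.card (Finset.filter_congr fun i _ => ?_)
    rcases hd i with e | e <;> simp [e]
  obtain ⟨er⟩ : Nonempty (Fin (posIndex A) ≃ {i // d i = 1}) :=
    ⟨(Fintype.equivFinOfCardEq hr).symm⟩
  obtain ⟨es⟩ : Nonempty (Fin (negIndex A) ≃ {i // ¬ d i = 1}) :=
    ⟨(Fintype.equivFinOfCardEq hs).symm⟩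
  refine he.trans ?_
  have e := iso_submatrix (diagonal d) ((er.sumCongr es).trans (Equiv.sumCompl fun i => d i = 1))
  rw [submatrix_diagonal_equiv] at e
  suffices hd' : d ∘ ((er.sumCongr es).trans (Equiv.sumCompl fun i => d i = 1)) =
      Sum.elim (fun _ => 1) fun _ => -1 by rwa [hd'] at e
  funext x
  rcases x with x | x
  · simpa using (er x).2
  · simpa using (hd _).resolve_left (es x).2

theorem iso_of_signDiag {A : Matrix ι ι ℤ} {B : Matrix κ κ ℤ} (hA : SignDiag A) (hB : SignDiag B)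
    (hp : posIndex A = posIndex B) (hn : negIndex A = negIndex B) : Iso A B := by
  have h := iso_signForm hA
  rw [hp, hn] at h
  exact h.trans (iso_signForm hB).symm

/-- A characteristic vector: it pairs with every vector as that vector does with itself, mod two. -/
def Characteristic (A : Matrix ι ι ℤ) (c : ι → ℤ) : Prop :=
  ∀ x, 2 ∣ c ⬝ᵥ (A *ᵥ x) - val A x

theorem exists_characteristic {A : Matrix ι ι ℤ} (hA : Unimodular A) :
    ∃ c, Characteristic A c := by
  obtain ⟨c, hc⟩ : ∃ c, c = A⁻¹ *ᵥ fun i => A i i := ⟨_, rfl⟩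
  refine ⟨c, fun x => ?_⟩
  have hAc : A *ᵥ c = fun i => A i i := by
    rw [hc, Matrix.mulVec_mulVec, mul_nonsing_inv _ hA.2, Matrix.one_mulVec]
  rw [dot_swap hA.1, hAc]
  rw [← Finset.univ_sum_single x]
  refine Finset.sum_induction _ (fun v => (2 : ℤ) ∣ (v ⬝ᵥ fun i => A i i) - val A v)
    (fun a b ha hb => ?_) (by simp) (fun i _ => ?_)
  · rw [val_add hA.1, add_dotProduct,
      show (a ⬝ᵥ fun i => A i i) + (b ⬝ᵥ fun i => A i i) -
        (val A a + val A b + 2 * (a ⬝ᵥ A *ᵥ b)) =
        ((a ⬝ᵥ fun i => A i i) - val A a) + ((b ⬝ᵥ fun i => A i i) - val A b) -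
          2 * (a ⬝ᵥ A *ᵥ b) by ring]
    exact dvd_sub (dvd_add ha hb) (dvd_mul_right _ _)
  · rw [show (Pi.single i (x i) : ι → ℤ) = x i • Pi.single i 1 by
      rw [← Pi.single_smul, smul_eq_mul, mul_one], val_smul, val_single, smul_dotProduct,
      single_dotProduct, one_mul, smul_eq_mul,
      show x i * A i i - x i ^ 2 * A i i = -(x i * (x i - 1)) * A i i by ring]
    exact Dvd.dvd.mul_right (dvd_neg.2 (even_iff_two_dvd.1 (Int.even_mul_pred_self _))) _

theorem dvd_mulVec {d : ℤ} {M : Matrix κ ι ℤ} {v : ι → ℤ} (h : ∀ j, d ∣ v j) (i : κ) :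
    d ∣ (M *ᵥ v) i := Finset.dvd_sum fun j _ => (h j).mul_left _

theorem eight_dvd_sq_sub_one {z : ℤ} (hz : ¬ 2 ∣ z) : 8 ∣ z ^ 2 - 1 := by
  obtain ⟨k, rfl⟩ : ∃ k, z = 2 * k + 1 := ⟨z / 2, by omega⟩
  rw [show (2 * k + 1) ^ 2 - 1 = 4 * (k * (k + 1)) by ring]
  obtain ⟨t, ht⟩ := even_iff_two_dvd.1 (Int.even_mul_succ_self k)
  exact ⟨t, by rw [ht]; ring⟩

theorem Iso.characteristic {A : Matrix ι ι ℤ} {B : Matrix κ κ ℤ} (h : Iso A B) {c : ι → ℤ}
    (hc : Characteristic A c) : ∃ z, Characteristic B z ∧ val B z = val A c := by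
  obtain ⟨P, Q, h1, h2, rfl⟩ := h
  refine ⟨Q *ᵥ c, fun y => ?_, ?_⟩
  · have e : (Q *ᵥ c) ⬝ᵥ ((Pᵀ * A * P) *ᵥ y) = c ⬝ᵥ (A *ᵥ (P *ᵥ y)) := by
      rw [← Matrix.mulVec_mulVec, ← Matrix.mulVec_mulVec, dotProduct_transpose_mulVec,
        Matrix.mulVec_mulVec c P Q, h1, Matrix.one_mulVec, dotProduct_comm]
    rw [e, val_congr]
    exact hc _
  · rw [val_congr, Matrix.mulVec_mulVec, h1, Matrix.one_mulVec]

/-- **Van der Blij**: a characteristic vector has value congruent to the signature mod eight. -/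
theorem characteristic_mod_eight {A : Matrix ι ι ℤ} (hA : Unimodular A) {c : ι → ℤ}
    (hc : Characteristic A c) : 8 ∣ val A c - ((posIndex A : ℤ) - negIndex A) := by
  have hS : Unimodular (dsum (hyp 1) A) := (unimodular_hyp 1).dsum hA
  obtain ⟨m, d, hd, he⟩ := signDiag_of_indefinite_odd hS (indefinite_hyp 1).dsum_left
    fun h => not_evenForm_hyp_one (evenForm_dsum_iff.1 h).1
  have hc' : Characteristic (dsum (hyp 1) A) (Sum.elim ![1, 0] c) := fun z => by
    obtain ⟨x, y, rfl⟩ : ∃ x y, z = Sum.elim x y := ⟨_, _, (Sum.elim_comp_inl_inr z).symm⟩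
    rw [val_dsum]
    have e : Sum.elim ![1, 0] c ⬝ᵥ (dsum (hyp 1) A *ᵥ Sum.elim x y) =
        x 1 + c ⬝ᵥ (A *ᵥ y) := by
      simp [dsum, dotProduct, Matrix.mulVec, hyp]
    rw [e, val_hyp, show x 1 + c ⬝ᵥ (A *ᵥ y) - (2 * x 0 * x 1 + 1 * x 1 ^ 2 + val A y) =
      -(x 1 * (x 1 - 1)) - 2 * (x 0 * x 1) + (c ⬝ᵥ (A *ᵥ y) - val A y) by ring]
    exact dvd_add (dvd_sub (dvd_neg.2 (even_iff_two_dvd.1 (Int.even_mul_pred_self _)))
      (dvd_mul_right _ _)) (hc y)
  obtain ⟨z, hz, hzv⟩ := he.characteristic hc'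
  rw [val_dsum, val_hyp] at hzv
  simp at hzv
  have hodd : ∀ i, ¬ 2 ∣ z i := fun i hi => by
    have h := hz (Pi.single i 1)
    rw [val_single, diagonal_apply_eq,
      show z ⬝ᵥ (diagonal d *ᵥ Pi.single i 1) = z i * d i by
        simp [dotProduct, mulVec_diagonal, Pi.single_apply]] at h
    rcases hd i with e | e <;> rw [e] at h <;> omega
  have hsum : 8 ∣ val (diagonal d) z - ∑ i, d i := by
    rw [val_diagonal, ← Finset.sum_sub_distrib]
    refine Finset.dvd_sum fun i _ => ?_
    rw [show d i * z i ^ 2 - d i = d i * (z i ^ 2 - 1) by ring]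
    exact (eight_dvd_sq_sub_one (hodd i)).mul_left _
  have hcount : ∑ i, d i = (posIndex A : ℤ) - negIndex A := by
    have hp := he.posIndex_eq
    have hn := he.negIndex_eq
    rw [posIndex_dsum (unimodular_hyp 1).1 hA.1, (posIndex_hyp 1).1,
      (ratDiag_diagonal d).posIndex_eq] at hp
    rw [negIndex_dsum (unimodular_hyp 1).1 hA.1, (posIndex_hyp 1).2,
      (ratDiag_diagonal d).negIndex_eq] at hn
    have e : ∀ i, d i = (if (0 : ℚ) < (d i : ℚ) then (1 : ℤ) else 0) -
        (if (d i : ℚ) < 0 then (1 : ℤ) else 0) := fun i => by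
      rcases hd i with e | e <;> norm_num [e]
    rw [Finset.sum_congr rfl fun i _ => e i, Finset.sum_sub_distrib, Finset.sum_boole,
      Finset.sum_boole, ← hp, ← hn]
    push_cast
    ring
  rwa [hzv, hcount] at hsum

/-- An even unimodular form has signature divisible by eight. -/
theorem signature_of_even {A : Matrix ι ι ℤ} (hA : Unimodular A) (he : EvenForm A) :
    (8 : ℤ) ∣ (posIndex A : ℤ) - negIndex A := by
  have hc : Characteristic A 0 := fun x => by
    simpa using dvd_neg.2 (even_iff_two_dvd.1 (he x))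
  simpa using dvd_neg.2 (characteristic_mod_eight hA hc)

/-- Congruence passes to the scaled basis `k i • eᵢ`. -/
theorem exists_scaled {X Y P : Matrix ι ι ℤ} (k : ι → ℤ) (hk : ∀ i, k i ≠ 0)
    (hP : IsUnit P.det) (h : Y = Pᵀ * X * P) (hdvd : ∀ i j, k i ∣ P i j * k j) :
    ∃ T : Matrix ι ι ℤ, IsUnit T.det ∧ P * diagonal k = diagonal k * T ∧
      diagonal k * Y * diagonal k = Tᵀ * (diagonal k * X * diagonal k) * T := by
  choose T hT using hdvd
  have hdet : (diagonal k).det ≠ 0 := by
    rw [det_diagonal]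
    exact Finset.prod_ne_zero_iff.2 fun i _ => hk i
  have e : P * diagonal k = diagonal k * Matrix.of T := by
    ext i j
    simp [mul_diagonal, diagonal_mul, hT]
  refine ⟨Matrix.of T, ?_, e, ?_⟩
  · have := congrArg Matrix.det e
    rw [det_mul, det_mul, mul_comm P.det] at this
    rwa [← mul_left_cancel₀ hdet this]
  · have e' := congrArg Matrix.transpose e
    rw [Matrix.transpose_mul, Matrix.transpose_mul, diagonal_transpose] at e'
    calc diagonal k * Y * diagonal k = diagonal k * Pᵀ * X * (P * diagonal k) := by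
          rw [h]; simp only [Matrix.mul_assoc]
      _ = (Matrix.of T)ᵀ * (diagonal k * X * diagonal k) * Matrix.of T := by
          rw [e, e']; simp only [Matrix.mul_assoc]

/-- Congruence of the scaled forms passes back. -/
theorem iso_of_scaled {X Y P : Matrix ι ι ℤ} (k : ι → ℤ) (hk : ∀ i, k i ≠ 0) (hP : IsUnit P.det)
    (h : diagonal k * Y * diagonal k = Pᵀ * (diagonal k * X * diagonal k) * P)
    (hdvd : ∀ i j, k j ∣ k i * P i j) : Iso X Y := by
  choose T hT using hdvd
  have hdet : (diagonal k).det ≠ 0 := by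
    rw [det_diagonal]
    exact Finset.prod_ne_zero_iff.2 fun i _ => hk i
  have e : diagonal k * P = Matrix.of T * diagonal k := by
    ext i j
    simp [mul_diagonal, diagonal_mul, hT, mul_comm]
  refine iso_of_isUnit_det (P := Matrix.of T) ?_ ?_
  · have := congrArg Matrix.det e
    rw [det_mul, det_mul, mul_comm (Matrix.of T).det] at this
    rwa [← mul_left_cancel₀ hdet this]
  · have e' := congrArg Matrix.transpose e
    rw [Matrix.transpose_mul, Matrix.transpose_mul, diagonal_transpose] at e'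
    have h' : diagonal k * Y * diagonal k =
        diagonal k * ((Matrix.of T)ᵀ * X * Matrix.of T) * diagonal k := by
      calc diagonal k * Y * diagonal k = (Pᵀ * diagonal k) * X * (diagonal k * P) := by
            rw [h]; simp only [Matrix.mul_assoc]
        _ = _ := by rw [e, e']; simp only [Matrix.mul_assoc]
    ext i j
    have hij := congrFun (congrFun h' i) j
    rw [mul_diagonal, diagonal_mul, mul_diagonal, diagonal_mul] at hij
    exact mul_left_cancel₀ (hk i) (mul_right_cancel₀ (hk j) hij)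

/-- **The forms of even norm**: `(0 1; 1 1) ⊕ F` determines `(0 1; 1 0) ⊕ F` for even `F`. -/
theorem iso_plane_of_iso_hyp {m : ℕ} {F F' : Matrix (Fin m) (Fin m) ℤ} (hF : Unimodular F)
    (he : EvenForm F) (he' : EvenForm F') (h : Iso (dsum (hyp 1) F) (dsum (hyp 1) F')) :
    Iso (dsum plane F) (dsum plane F') := by
  obtain ⟨P, Q, hPQ, hQP, hS⟩ := h
  have hP : IsUnit P.det := isUnit_det_of_right_inverse hPQ
  -- the vectors of even norm, first in the basis `(1, 0), (0, 2)`
  have hpar : ∀ i j, Sum.elim ![1, 2] (1 : Fin m → ℤ) i ∣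
      P i j * Sum.elim ![1, 2] (1 : Fin m → ℤ) j := by
    intro i j
    rcases i with i | i
    · fin_cases i
      · simp
      · have hcol : ∀ v : Fin 2 ⊕ Fin m, Even (dsum (hyp 1) F' v v) →
            (2 : ℤ) ∣ P (Sum.inl 1) v := by
          intro v hv
          have e := val_single (A := dsum (hyp 1) F') v
          rw [hS, val_congr, val_dsum', val_hyp, mulVec_single_one] at e
          rw [hS] at hv
          rw [← e] at hv
          simp only [Function.comp_apply, col_apply, Int.even_add, he _, iff_true, one_mul,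
            Int.even_mul, even_two, true_or, true_iff, Int.even_pow] at hv
          exact even_iff_two_dvd.1 hv.1
        rcases j with j | j
        · fin_cases j
          · simpa using hcol (Sum.inl 0) (by simp [dsum, hyp])
          · simp
        · simpa using hcol (Sum.inr j) (by simpa [dsum] using he' (Pi.single j 1))
    · simp
  obtain ⟨T, hT, -, hG⟩ := exists_scaled _ (fun i => by
    rcases i with i | i
    · fin_cases i <;> simp
    · simp) hP hS hpar
  -- then in the basis `(1, 0), (-1, 2)`, with Gram matrix twice a plane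
  obtain ⟨W, hW⟩ : ∃ W : Matrix (Fin 2 ⊕ Fin m) (Fin 2 ⊕ Fin m) ℤ,
      W = fromBlocks !![1, -1; 0, 1] 0 0 1 := ⟨_, rfl⟩
  have hWd : IsUnit W.det := by simp [hW, Matrix.det_fin_two]
  obtain ⟨k, hk⟩ : ∃ k : Fin 2 ⊕ Fin m → ℤ, k = Sum.elim ![2, 1] 1 := ⟨_, rfl⟩
  have hG2 : ∀ F : Matrix (Fin m) (Fin m) ℤ,
      Wᵀ * (diagonal (Sum.elim ![1, 2] 1) * dsum (hyp 1) F * diagonal (Sum.elim ![1, 2] 1)) * W =
        diagonal k * dsum plane F * diagonal k := fun F => by
    rw [show diagonal (Sum.elim ![(1 : ℤ), 2] (1 : Fin m → ℤ)) =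
        fromBlocks (diagonal ![1, 2]) 0 0 1 by rw [← diagonal_one, fromBlocks_diagonal]; rfl,
      show diagonal k = fromBlocks (diagonal ![2, 1]) 0 0 1 by
        rw [hk, ← diagonal_one, fromBlocks_diagonal]; rfl, hW]
    simp only [dsum, fromBlocks_transpose, fromBlocks_multiply]
    simp only [Matrix.mul_zero, Matrix.zero_mul, add_zero, zero_add, Matrix.one_mul,
      Matrix.mul_one, Matrix.transpose_one, Matrix.transpose_zero]
    rw [fromBlocks_inj]
    refine ⟨?_, rfl, rfl, rfl⟩
    ext i j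
    fin_cases i <;> fin_cases j <;> simp [hyp, plane, Matrix.mul_apply]
  obtain ⟨P', hP'⟩ : ∃ P', P' = W⁻¹ * T * W := ⟨_, rfl⟩
  have hP'd : IsUnit P'.det := by
    rw [hP', det_mul, det_mul]
    exact ((isUnit_nonsing_inv_det _ hWd).mul hT).mul hWd
  have hG' : diagonal k * dsum plane F' * diagonal k =
      P'ᵀ * (diagonal k * dsum plane F * diagonal k) * P' := by
    rw [← hG2 F, ← hG2 F', hG, hP']
    simp only [Matrix.transpose_mul, Matrix.mul_assoc, Matrix.mul_nonsing_inv_cancel_left W _ hWd]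
    rw [← Matrix.mul_assoc (W⁻¹)ᵀ Wᵀ, ← Matrix.transpose_mul, mul_nonsing_inv _ hWd,
      Matrix.transpose_one, Matrix.one_mul]
  -- the first column of `P'`
  obtain ⟨v, hv⟩ : ∃ v, v = fun i => P' i (Sum.inl 0) := ⟨_, rfl⟩
  obtain ⟨G, hGdef⟩ : ∃ G, G = diagonal k * dsum plane F * diagonal k := ⟨_, rfl⟩
  have hv0 : val G v = 0 := by
    have e := val_single (A := diagonal k * dsum plane F' * diagonal k) (Sum.inl 0)
    rw [hG', val_congr, ← hGdef, mulVec_single_one] at e
    rw [hv]
    refine e.trans ?_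
    rw [hGdef, ← hG', mul_diagonal, diagonal_mul]
    simp [dsum, plane, hyp]
  have hGv : ∀ i, (2 : ℤ) ∣ (G *ᵥ v) i := by
    have e : ∀ j, (2 : ℤ) ∣ (P'ᵀ *ᵥ (G *ᵥ v)) j := fun j => by
      have : (P'ᵀ *ᵥ (G *ᵥ v)) j = (P'ᵀ * G * P') j (Sum.inl 0) := by
        rw [Matrix.mul_assoc, hv]
        rfl
      rw [this, hGdef, ← hG', mul_diagonal, diagonal_mul, hk]
      rcases j with j | j
      · fin_cases j <;> simp [dsum, plane, hyp]
      · simp [dsum]
    intro i
    have e' : G *ᵥ v = (P'ᵀ)⁻¹ *ᵥ (P'ᵀ *ᵥ (G *ᵥ v)) := by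
      rw [Matrix.mulVec_mulVec, nonsing_inv_mul _ (by rwa [det_transpose]), Matrix.one_mulVec]
    rw [e']
    exact dvd_mulVec e i
  obtain ⟨x, hx⟩ : ∃ x, x = fun j => v (Sum.inr j) := ⟨_, rfl⟩
  obtain ⟨hval, hmul⟩ : val G v = 4 * (v (Sum.inl 0) * v (Sum.inl 1)) + val F x ∧
      ∀ j, (G *ᵥ v) (Sum.inr j) = (F *ᵥ x) j := by
    have eG : G = fromBlocks (diagonal ![2, 1] * plane * diagonal ![2, 1]) 0 0 F := by
      rw [hGdef, show diagonal k = fromBlocks (diagonal ![2, 1]) 0 0 1 by
        rw [hk, ← diagonal_one, fromBlocks_diagonal]; rfl]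
      simp [dsum, fromBlocks_multiply]
    rw [eG]
    refine ⟨?_, fun j => ?_⟩
    · rw [show fromBlocks (diagonal ![2, 1] * plane * diagonal ![2, 1]) 0 0 F =
        dsum (diagonal ![2, 1] * plane * diagonal ![2, 1]) F from rfl, val_dsum']
      simp [val, plane, hyp, dotProduct, Matrix.mulVec, Fin.sum_univ_two, Matrix.mul_apply, hx]
      ring
    · simp [hx, Matrix.mulVec, dotProduct]
  have hxe : ∀ j, (2 : ℤ) ∣ x j := fun j => by
    have e : x = F⁻¹ *ᵥ (F *ᵥ x) := by
      rw [Matrix.mulVec_mulVec, nonsing_inv_mul _ hF.2, Matrix.one_mulVec]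
    rw [e]
    exact dvd_mulVec (fun i => hmul i ▸ hGv _) j
  have hab : (2 : ℤ) ∣ v (Sum.inl 0) ∨ (2 : ℤ) ∣ v (Sum.inl 1) := by
    choose y hy using hxe
    have hx2 : x = (2 : ℤ) • y := funext fun j => by simp [hy]
    rw [hv0, hx2, val_smul] at hval
    obtain ⟨t, ht⟩ := he y
    exact Int.prime_two.dvd_mul.1 ⟨-t, by linarith⟩
  -- if need be exchange the two even overlattices
  obtain ⟨σ, hσd, hσG, hσv⟩ : ∃ σ : Matrix (Fin 2 ⊕ Fin m) (Fin 2 ⊕ Fin m) ℤ, IsUnit σ.det ∧
      σᵀ * G * σ = G ∧ (2 : ℤ) ∣ (σ *ᵥ v) (Sum.inl 1) ∧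
        ∀ j, (σ *ᵥ v) (Sum.inr j) = x j := by
    rcases hab with h | h
    · refine ⟨fromBlocks !![0, 1; 1, 0] 0 0 1, ?_, ?_, ?_, fun j => ?_⟩
      · simp [Matrix.det_fin_two]
      · rw [hGdef, show diagonal k = fromBlocks (diagonal ![2, 1]) 0 0 1 by
          rw [hk, ← diagonal_one, fromBlocks_diagonal]; rfl]
        simp only [dsum, fromBlocks_transpose, fromBlocks_multiply, Matrix.mul_zero,
          Matrix.zero_mul, add_zero, zero_add, Matrix.one_mul, Matrix.mul_one,
          Matrix.transpose_one, Matrix.transpose_zero]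
        rw [fromBlocks_inj]
        refine ⟨?_, rfl, rfl, rfl⟩
        ext i j
        fin_cases i <;> fin_cases j <;> simp [plane, hyp, Matrix.mul_apply]
      · simpa [Matrix.fromBlocks_mulVec, Matrix.mulVec, dotProduct] using h
      · simp [fromBlocks_mulVec, hx]
    · exact ⟨1, by simp, by simp, by simpa using h, fun j => by simp [hx]⟩
  refine iso_of_scaled k (fun i => ?_) (P := σ * P') (by rw [det_mul]; exact hσd.mul hP'd) ?_ ?_
  · rcases i with i | i
    · fin_cases i <;> simp [hk]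
    · simp [hk]
  · rw [hG', Matrix.transpose_mul]
    conv_lhs => rw [← hGdef, ← hσG, hGdef]
    simp only [Matrix.mul_assoc]
  · intro i j
    have hcol : (σ * P') i (Sum.inl 0) = (σ *ᵥ v) i := by
      rw [hv]
      rfl
    subst hk
    rcases j with j | j
    · fin_cases j
      · rcases i with i | i
        · fin_cases i
          · simp
          · simp only [Fin.zero_eta, Fin.mk_one] at hcol ⊢
            rw [hcol]
            simpa using hσv.1
        · simpa [hcol, hσv.2 i] using hxe i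
      · simp
    · simp

theorem iso_fin_of_card {A : Matrix ι ι ℤ} {m : ℕ} (h : Fintype.card ι = m) :
    ∃ B : Matrix (Fin m) (Fin m) ℤ, Iso A B := h ▸ exists_iso_fin A

/-- Positive or not, two unimodular forms of one signature and parity agree after a plane. -/
theorem iso_dsum_plane {F : Matrix ι ι ℤ} {F' : Matrix κ κ ℤ} (hF : Unimodular F)
    (hF' : Unimodular F') (he : EvenForm F ↔ EvenForm F') (hp : posIndex F = posIndex F')
    (hn : negIndex F = negIndex F') : Iso (dsum plane F) (dsum plane F') := by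
  have hm : Fintype.card κ = Fintype.card ι := by
    rw [← posIndex_add_negIndex hF, ← posIndex_add_negIndex hF', hp, hn]
  obtain ⟨B, hB⟩ := exists_iso_fin F
  obtain ⟨B', hB'⟩ := iso_fin_of_card (A := F') hm
  refine (((Iso.refl plane).dsum hB).trans ?_).trans ((Iso.refl plane).dsum hB').symm
  have hu := hB.unimodular hF
  have hu' := hB'.unimodular hF'
  rw [hB.evenForm_iff, hB'.evenForm_iff] at he
  rw [hB.posIndex_eq, hB'.posIndex_eq] at hp
  rw [hB.negIndex_eq, hB'.negIndex_eq] at hn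
  have key : ∀ b : ℤ, (b = 1 ∨ ¬ EvenForm B) → Iso (dsum (hyp b) B) (dsum (hyp b) B') := by
    intro b hb
    have hodd : ∀ M : Matrix (Fin (Fintype.card ι)) (Fin (Fintype.card ι)) ℤ, (b = 1 ∨ ¬ EvenForm M)
        → ¬ EvenForm (dsum (hyp b) M) := fun M hb h => by
      obtain ⟨h1, h2⟩ := evenForm_dsum_iff.1 h
      rcases hb with rfl | hb
      · exact not_evenForm_hyp_one h1
      · exact hb h2
    refine iso_of_signDiag
      (signDiag_of_indefinite_odd ((unimodular_hyp b).dsum hu) (indefinite_hyp b).dsum_left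
        (hodd B hb))
      (signDiag_of_indefinite_odd ((unimodular_hyp b).dsum hu') (indefinite_hyp b).dsum_left
        (hodd B' (by rwa [← he]))) ?_ ?_
    · rw [posIndex_dsum (unimodular_hyp b).1 hu.1, posIndex_dsum (unimodular_hyp b).1 hu'.1, hp]
    · rw [negIndex_dsum (unimodular_hyp b).1 hu.1, negIndex_dsum (unimodular_hyp b).1 hu'.1, hn]
  by_cases hev : EvenForm B
  · exact iso_plane_of_iso_hyp hu hev (he.1 hev) (key 1 (.inl rfl))
  · exact key 0 (.inr hev)

/-- **Milnor**: rank, signature and parity determine an indefinite unimodular form. -/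
theorem iso_of_invariants {A : Matrix ι ι ℤ} {B : Matrix κ κ ℤ} (hA : Unimodular A)
    (hB : Unimodular B) (hiA : Indefinite A) (he : EvenForm A ↔ EvenForm B)
    (hp : posIndex A = posIndex B) (hn : negIndex A = negIndex B) : Iso A B := by
  have hiB : Indefinite B := by
    rw [indefinite_iff_index hB.1, ← hp, ← hn, ← indefinite_iff_index hA.1]
    exact hiA
  by_cases hev : EvenForm A
  · obtain ⟨b, k, M, -, -, hb, hM, hs⟩ := exists_split hA hiA
    obtain ⟨b', k', M', -, -, hb', hM', hs'⟩ := exists_split hB hiB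
    obtain ⟨rfl, heM⟩ := hb hev
    obtain ⟨rfl, heM'⟩ := hb' (he.1 hev)
    refine hs.trans ((iso_dsum_plane hM hM' (iff_of_true heM heM') ?_ ?_).trans hs'.symm)
    · rw [hs.posIndex_eq, hs'.posIndex_eq, posIndex_dsum (unimodular_hyp 0).1 hM.1,
        posIndex_dsum (unimodular_hyp 0).1 hM'.1] at hp
      exact Nat.add_left_cancel hp
    · rw [hs.negIndex_eq, hs'.negIndex_eq, negIndex_dsum (unimodular_hyp 0).1 hM.1,
        negIndex_dsum (unimodular_hyp 0).1 hM'.1] at hn
      exact Nat.add_left_cancel hn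
  · exact iso_of_signDiag (signDiag_of_indefinite_odd hA hiA hev)
      (signDiag_of_indefinite_odd hB hiB (by rwa [← he])) hp hn

theorem unimodular_e8 : Unimodular FA.Summary.e8Gram := by
  obtain ⟨hs, -, -, hu⟩ := FA.Summary.e8_unimodular
  exact ⟨hs, (isUnit_iff_isUnit_det _).1 hu⟩

theorem evenForm_e8 : EvenForm FA.Summary.e8Gram :=
  (evenForm_iff_diag unimodular_e8.1).2 FA.Summary.e8_unimodular.2.1

theorem index_e8 : posIndex FA.Summary.e8Gram = 8 ∧ negIndex FA.Summary.e8Gram = 0 := by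
  have h0 : negIndex FA.Summary.e8Gram = 0 := by
    by_contra hne
    obtain ⟨x, hx⟩ := (negIndex_pos_iff unimodular_e8.1).1 (Nat.pos_of_ne_zero hne)
    rcases eq_or_ne x 0 with rfl | h
    · simp at hx
    · have := FA.Summary.e8_unimodular.2.2.1 x h
      rw [val] at hx
      simp only [dotProduct, Matrix.mulVec, Finset.mul_sum, ← mul_assoc] at hx
      omega
  exact ⟨by have := posIndex_add_negIndex unimodular_e8; simp at this; omega, h0⟩

theorem blockDiagonal_props {o : Type*} [Fintype o] [DecidableEq o] {A : Matrix ι ι ℤ}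
    (hA : Unimodular A) :
    Unimodular (blockDiagonal fun _ : o => A) ∧
      (EvenForm A → EvenForm (blockDiagonal fun _ : o => A)) ∧
      posIndex (blockDiagonal fun _ : o => A) = Fintype.card o * posIndex A ∧
      negIndex (blockDiagonal fun _ : o => A) = Fintype.card o * negIndex A := by
  have hs : (blockDiagonal fun _ : o => A).IsSymm := by
    rw [Matrix.IsSymm, blockDiagonal_transpose, hA.1.eq]
  refine ⟨⟨hs, ?_⟩, fun he => ?_, ?_, ?_⟩
  · rw [det_blockDiagonal, Finset.prod_const]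
    exact hA.2.pow _
  · rw [evenForm_iff_diag hs]
    rintro ⟨i, k⟩
    simpa [blockDiagonal_apply] using (evenForm_iff_diag hA.1).1 he i
  all_goals
    obtain ⟨m, w, hw⟩ := exists_ratDiag hA.1
    first
      | (rw [hw.blockDiagonal.posIndex_eq, hw.posIndex_eq])
      | (rw [hw.blockDiagonal.negIndex_eq, hw.negIndex_eq])
    simp only [Finset.card_filter, Fintype.sum_prod_type]
    rw [Finset.mul_sum]
    refine Finset.sum_congr rfl fun i _ => ?_
    split_ifs <;> simp

/-- **Even indefinite forms**: a sum of planes and of copies of `±E₈`. -/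
theorem exists_model {A : Matrix ι ι ℤ} (hA : Unimodular A) (hi : Indefinite A)
    (he : EvenForm A) :
    ∃ (p q : ℕ) (e : ℤ), 0 < p ∧ (e = 1 ∨ e = -1) ∧
      Iso A (dsum (blockDiagonal fun _ : Fin p => plane)
        (blockDiagonal fun _ : Fin q => e • FA.Summary.e8Gram)) := by
  obtain ⟨hp, hn⟩ := (indefinite_iff_index hA.1).1 hi
  obtain ⟨t, ht⟩ := signature_of_even hA he
  have hpl : Unimodular plane := unimodular_hyp 0
  have hneg : Unimodular (-FA.Summary.e8Gram) :=
    ⟨unimodular_e8.1.neg, by rw [det_neg]; exact (isUnit_one.neg.pow _).mul unimodular_e8.2⟩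
  have hnege : EvenForm (-FA.Summary.e8Gram) := fun x => by
    rw [val_neg]
    exact (evenForm_e8 x).neg
  rcases le_total (negIndex A) (posIndex A) with hle | hle
  · refine ⟨negIndex A, t.toNat, 1, hn, .inl rfl, ?_⟩
    rw [one_smul]
    obtain ⟨h1, h2, h3, h4⟩ := blockDiagonal_props (o := Fin (negIndex A)) hpl
    obtain ⟨g1, g2, g3, g4⟩ := blockDiagonal_props (o := Fin t.toNat) unimodular_e8
    refine iso_of_invariants hA (h1.dsum g1) hi
      (iff_of_true he (evenForm_dsum_iff.2 ⟨h2 evenForm_plane, g2 evenForm_e8⟩)) ?_ ?_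
    · rw [posIndex_dsum h1.1 g1.1, h3, g3, index_e8.1, plane, (posIndex_hyp 0).1,
        Fintype.card_fin, Fintype.card_fin]
      omega
    · rw [negIndex_dsum h1.1 g1.1, h4, g4, index_e8.2, plane, (posIndex_hyp 0).2,
        Fintype.card_fin, Fintype.card_fin]
      omega
  · refine ⟨posIndex A, (-t).toNat, -1, hp, .inr rfl, ?_⟩
    rw [neg_one_smul]
    obtain ⟨h1, h2, h3, h4⟩ := blockDiagonal_props (o := Fin (posIndex A)) hpl
    obtain ⟨g1, g2, g3, g4⟩ := blockDiagonal_props (o := Fin (-t).toNat) hneg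
    refine iso_of_invariants hA (h1.dsum g1) hi
      (iff_of_true he (evenForm_dsum_iff.2 ⟨h2 evenForm_plane, g2 hnege⟩)) ?_ ?_
    · rw [posIndex_dsum h1.1 g1.1, h3, g3, posIndex_neg unimodular_e8.1, index_e8.2, plane,
        (posIndex_hyp 0).1, Fintype.card_fin, Fintype.card_fin]
      omega
    · rw [negIndex_dsum h1.1 g1.1, h4, g4, negIndex_neg unimodular_e8.1, index_e8.1, plane,
        (posIndex_hyp 0).2, Fintype.card_fin, Fintype.card_fin]
      omega

/-- All pairs `(r, s)` allowed by van der Blij occur. -/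
theorem exists_even_of_signature {r s : ℕ} (h : (8 : ℤ) ∣ (r : ℤ) - s) :
    ∃ (n : ℕ) (A : Matrix (Fin n) (Fin n) ℤ),
      Unimodular A ∧ EvenForm A ∧ posIndex A = r ∧ negIndex A = s := by
  obtain ⟨t, ht⟩ := h
  have hpl : Unimodular plane := unimodular_hyp 0
  obtain ⟨h1, h2, h3, h4⟩ := blockDiagonal_props (o := Fin (min r s)) hpl
  rw [show posIndex plane = 1 from (posIndex_hyp 0).1, Fintype.card_fin, mul_one] at h3
  rw [show negIndex plane = 1 from (posIndex_hyp 0).2, Fintype.card_fin, mul_one] at h4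
  rcases le_total s r with hle | hle
  · obtain ⟨g1, g2, g3, g4⟩ := blockDiagonal_props (o := Fin t.toNat) unimodular_e8
    obtain ⟨B, hB⟩ := exists_iso_fin (dsum (blockDiagonal fun _ : Fin (min r s) => plane)
      (blockDiagonal fun _ : Fin t.toNat => FA.Summary.e8Gram))
    refine ⟨_, B, hB.unimodular (h1.dsum g1),
      hB.evenForm (evenForm_dsum_iff.2 ⟨h2 evenForm_plane, g2 evenForm_e8⟩), ?_, ?_⟩
    · rw [← hB.posIndex_eq, posIndex_dsum h1.1 g1.1, h3, g3, index_e8.1, Fintype.card_fin]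
      omega
    · rw [← hB.negIndex_eq, negIndex_dsum h1.1 g1.1, h4, g4, index_e8.2, Fintype.card_fin]
      omega
  · have hneg : Unimodular (-FA.Summary.e8Gram) :=
      ⟨unimodular_e8.1.neg, by rw [det_neg]; exact (isUnit_one.neg.pow _).mul unimodular_e8.2⟩
    obtain ⟨g1, g2, g3, g4⟩ := blockDiagonal_props (o := Fin (-t).toNat) hneg
    obtain ⟨B, hB⟩ := exists_iso_fin (dsum (blockDiagonal fun _ : Fin (min r s) => plane)
      (blockDiagonal fun _ : Fin (-t).toNat => -FA.Summary.e8Gram))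
    refine ⟨_, B, hB.unimodular (h1.dsum g1), hB.evenForm (evenForm_dsum_iff.2 ⟨h2 evenForm_plane,
      g2 fun x => by rw [val_neg]; exact (evenForm_e8 x).neg⟩), ?_, ?_⟩
    · rw [← hB.posIndex_eq, posIndex_dsum h1.1 g1.1, h3, g3, posIndex_neg unimodular_e8.1,
        index_e8.2, Fintype.card_fin]
      omega
    · rw [← hB.negIndex_eq, negIndex_dsum h1.1 g1.1, h4, g4, negIndex_neg unimodular_e8.1,
        index_e8.1, Fintype.card_fin]
      omega

theorem Iso.represents {A : Matrix ι ι ℤ} {B : Matrix κ κ ℤ} (h : Iso A B) {m : ℤ}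
    (hB : ∃ y, val B y = m) : ∃ x, val A x = m := h.symm.exists_val (p := fun v => v = m) hB

theorem represents_plane (m : ℤ) : ∃ x, val plane x = 2 * m :=
  ⟨![m, 1], by simp [plane, val_hyp]⟩

/-- An even indefinite form represents every even number. -/
theorem represents_even {A : Matrix ι ι ℤ} (hA : Unimodular A) (hi : Indefinite A)
    (he : EvenForm A) (m : ℤ) : ∃ x, val A x = 2 * m := by
  obtain ⟨b, k, M, -, -, hb, -, hs⟩ := exists_split hA hi
  obtain ⟨rfl, -⟩ := hb he
  obtain ⟨x, hx⟩ := represents_plane m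
  exact hs.represents ⟨Sum.elim x 0, by rw [val_dsum]; simpa [plane] using hx⟩

/-- An odd indefinite form in three or more variables represents every integer. -/
theorem represents_odd {A : Matrix ι ι ℤ} (hA : Unimodular A) (hi : Indefinite A)
    (ho : ¬ EvenForm A) (hn : 3 ≤ Fintype.card ι) (m : ℤ) : ∃ x, val A x = m := by
  have hs := iso_signForm (signDiag_of_indefinite_odd hA hi ho)
  have hcard := posIndex_add_negIndex hA
  obtain ⟨hp, hq⟩ := (indefinite_iff_index hA.1).1 hi
  obtain ⟨r, s, hrs, hiso⟩ : ∃ r s, 3 ≤ r + s + 2 ∧ Iso A (signForm (r + 1) (s + 1)) :=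
    ⟨posIndex A - 1, negIndex A - 1, by omega, by
      rwa [Nat.sub_add_cancel hp, Nat.sub_add_cancel hq]⟩
  refine hiso.represents ?_
  obtain ⟨a, ha⟩ : ∃ a : ℤ, m = 2 * a + 1 ∨ m = 2 * a :=
    ⟨m / 2, by omega⟩
  rcases ha with rfl | rfl
  · refine ⟨Sum.elim (Fin.cons (a + 1) 0) (Fin.cons a 0), ?_⟩
    simp [signForm, val_diagonal, Fin.sum_univ_succ]
    ring
  · rcases Nat.eq_zero_or_pos r with rfl | hr
    · obtain ⟨s, rfl⟩ : ∃ s', s = s' + 1 := ⟨s - 1, by omega⟩
      refine ⟨Sum.elim (Fin.cons (a + 1) 0) (Fin.cons a (Fin.cons 1 0)), ?_⟩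
      simp [signForm, val_diagonal, Fin.sum_univ_succ]
      ring
    · obtain ⟨r, rfl⟩ : ∃ r', r = r' + 1 := ⟨r - 1, by omega⟩
      refine ⟨Sum.elim (Fin.cons a (Fin.cons 1 0)) (Fin.cons (a - 1) 0), ?_⟩
      simp [signForm, val_diagonal, Fin.sum_univ_succ]
      ring

end FA.IndefiniteUnimodular
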