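import Fermat.Agent.Reduction.Basic
import Mathlib.Data.Matrix.Basic
import Mathlib.Tactic

/-!
# Integral forms up to isometry

A form is a square integer matrix `A`, with values `x ↦ x ⬝ A x`. Two forms, possibly on
different index types, are isometric when an invertible integer matrix carries one to the other.
-/

set_option autoImplicit false
set_option linter.unusedSectionVars false

noncomputable section

namespace FA.IndefiniteUnimodular

open Matrix

variable {ι κ μ ν : Type*} [Fintype ι] [DecidableEq ι] [Fintype κ] [DecidableEq κ]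
  [Fintype μ] [DecidableEq μ] [Fintype ν] [DecidableEq ν]

/-- Isometry: an invertible integer matrix carries `A` to `B`. -/
def Iso (A : Matrix ι ι ℤ) (B : Matrix κ κ ℤ) : Prop :=
  ∃ (P : Matrix ι κ ℤ) (Q : Matrix κ ι ℤ), P * Q = 1 ∧ Q * P = 1 ∧ B = Pᵀ * A * P

/-- The value of the form at a vector. -/
def val (A : Matrix ι ι ℤ) (x : ι → ℤ) : ℤ := x ⬝ᵥ (A *ᵥ x)

/-- Symmetric and of determinant `±1`. -/
def Unimodular (A : Matrix ι ι ℤ) : Prop := A.IsSymm ∧ IsUnit A.det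

/-- All values are even. -/
def EvenForm (A : Matrix ι ι ℤ) : Prop := ∀ x, Even (val A x)

/-- Positive and negative values both occur. -/
def Indefinite (A : Matrix ι ι ℤ) : Prop := (∃ x, 0 < val A x) ∧ ∃ x, val A x < 0

/-- The orthogonal sum. -/
def dsum (A : Matrix ι ι ℤ) (B : Matrix κ κ ℤ) : Matrix (ι ⊕ κ) (ι ⊕ κ) ℤ :=
  fromBlocks A 0 0 B

/-- The form `(0 1; 1 b)`. -/
def hyp (b : ℤ) : Matrix (Fin 2) (Fin 2) ℤ := !![0, 1; 1, b]

/-- The hyperbolic plane. -/
def plane : Matrix (Fin 2) (Fin 2) ℤ := hyp 0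

/-- The form `a x²`. -/
def line (a : ℤ) : Matrix (Fin 1) (Fin 1) ℤ := diagonal fun _ => a

section iso

variable {A : Matrix ι ι ℤ} {B : Matrix κ κ ℤ}

theorem Iso.refl (A : Matrix ι ι ℤ) : Iso A A := ⟨1, 1, by simp, by simp, by simp⟩

theorem Iso.symm (h : Iso A B) : Iso B A := by
  obtain ⟨P, Q, h1, h2, rfl⟩ := h
  refine ⟨Q, P, h2, h1, ?_⟩
  have e : (P * Q)ᵀ * A * (P * Q) = A := by rw [h1]; simp
  rw [Matrix.transpose_mul] at e
  simp only [Matrix.mul_assoc] at e ⊢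
  exact e.symm

theorem Iso.trans {C : Matrix μ μ ℤ} (h : Iso A B) (h' : Iso B C) : Iso A C := by
  obtain ⟨P, Q, h1, h2, rfl⟩ := h
  obtain ⟨P', Q', h1', h2', rfl⟩ := h'
  refine ⟨P * P', Q' * Q, ?_, ?_, ?_⟩
  · rw [Matrix.mul_assoc, ← Matrix.mul_assoc P', h1', Matrix.one_mul, h1]
  · rw [Matrix.mul_assoc, ← Matrix.mul_assoc Q, h2, Matrix.one_mul, h2']
  · simp only [Matrix.transpose_mul, Matrix.mul_assoc]

theorem iso_of_congr {n : ℕ} {A B : Matrix (Fin n) (Fin n) ℤ} (h : FA.Reduction.Congr A B) :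
    Iso A B := by
  obtain ⟨U, hU, rfl⟩ := h
  exact ⟨U, U⁻¹, mul_nonsing_inv _ hU, nonsing_inv_mul _ hU, rfl⟩

theorem iso_of_isUnit_det {A B P : Matrix ι ι ℤ} (hP : IsUnit P.det) (h : B = Pᵀ * A * P) :
    Iso A B :=
  ⟨P, P⁻¹, mul_nonsing_inv _ hP, nonsing_inv_mul _ hP, h⟩

theorem iso_submatrix (A : Matrix ι ι ℤ) (e : κ ≃ ι) : Iso A (A.submatrix e e) := by
  refine ⟨(1 : Matrix ι ι ℤ).submatrix id e, (1 : Matrix ι ι ℤ).submatrix e id, ?_, ?_, ?_⟩
  · rw [submatrix_mul_equiv]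
    simp
  · rw [show (1 : Matrix ι ι ℤ).submatrix e id * (1 : Matrix ι ι ℤ).submatrix id e =
      ((1 : Matrix ι ι ℤ) * 1).submatrix e e from
        (submatrix_mul (1 : Matrix ι ι ℤ) 1 e id e Function.bijective_id).symm]
    simp
  · ext i j
    simp [Matrix.mul_apply, Matrix.one_apply]

theorem iso_submatrix' (A : Matrix ι ι ℤ) (B : Matrix κ κ ℤ) (e : κ ≃ ι)
    (h : ∀ i j, A (e i) (e j) = B i j) : Iso A B := by
  have hB : A.submatrix e e = B := by ext i j; exact h i j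
  exact hB ▸ iso_submatrix A e

/-- Every form is isometric to one on `Fin n`. -/
theorem exists_iso_fin (A : Matrix ι ι ℤ) :
    ∃ B : Matrix (Fin (Fintype.card ι)) (Fin (Fintype.card ι)) ℤ, Iso A B :=
  ⟨_, iso_submatrix A (Fintype.equivFin ι).symm⟩

theorem Iso.dsum {A' : Matrix μ μ ℤ} {B' : Matrix ν ν ℤ} (h : Iso A B) (h' : Iso A' B') :
    Iso (IndefiniteUnimodular.dsum A A') (IndefiniteUnimodular.dsum B B') := by
  obtain ⟨P, Q, h1, h2, rfl⟩ := h
  obtain ⟨P', Q', h1', h2', rfl⟩ := h'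
  refine ⟨fromBlocks P 0 0 P', fromBlocks Q 0 0 Q', ?_, ?_, ?_⟩
  · simp [fromBlocks_multiply, h1, h1', fromBlocks_one]
  · simp [fromBlocks_multiply, h2, h2', fromBlocks_one]
  · simp [IndefiniteUnimodular.dsum, fromBlocks_transpose, fromBlocks_multiply]

theorem iso_dsum_comm (A : Matrix ι ι ℤ) (B : Matrix κ κ ℤ) : Iso (dsum A B) (dsum B A) :=
  iso_submatrix' _ _ (Equiv.sumComm κ ι) fun i j => by
    rcases i with i | i <;> rcases j with j | j <;> simp [dsum]

theorem iso_dsum_assoc (A : Matrix ι ι ℤ) (B : Matrix κ κ ℤ) (C : Matrix μ μ ℤ) :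
    Iso (dsum (dsum A B) C) (dsum A (dsum B C)) :=
  iso_submatrix' _ _ (Equiv.sumAssoc ι κ μ).symm fun i j => by
    rcases i with i | i | i <;> rcases j with j | j | j <;> simp [dsum]

end iso

section val

variable {A : Matrix ι ι ℤ} {B : Matrix κ κ ℤ}

theorem dot_swap (hA : A.IsSymm) (x y : ι → ℤ) : x ⬝ᵥ (A *ᵥ y) = y ⬝ᵥ (A *ᵥ x) := by
  conv_lhs => rw [Matrix.dotProduct_mulVec, ← Matrix.mulVec_transpose, hA.eq, dotProduct_comm]

theorem val_add (hA : A.IsSymm) (x y : ι → ℤ) :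
    val A (x + y) = val A x + val A y + 2 * (x ⬝ᵥ (A *ᵥ y)) := by
  simp only [val, Matrix.mulVec_add, dotProduct_add, add_dotProduct, dot_swap hA y x]
  ring

theorem val_smul (t : ℤ) (x : ι → ℤ) : val A (t • x) = t ^ 2 * val A x := by
  simp only [val, Matrix.mulVec_smul, dotProduct_smul, smul_dotProduct, smul_eq_mul]
  ring

@[simp] theorem val_zero : val A 0 = 0 := by simp [val]

@[simp] theorem val_single (i : ι) : val A (Pi.single i 1) = A i i := by
  simp [val]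

theorem val_congr (P : Matrix ι κ ℤ) (x : κ → ℤ) : val (Pᵀ * A * P) x = val A (P *ᵥ x) := by
  rw [val, val, ← Matrix.mulVec_mulVec, ← Matrix.mulVec_mulVec, Matrix.dotProduct_mulVec x Pᵀ,
    Matrix.vecMul_transpose]

theorem val_dsum (A : Matrix ι ι ℤ) (B : Matrix κ κ ℤ) (x : ι → ℤ) (y : κ → ℤ) :
    val (dsum A B) (Sum.elim x y) = val A x + val B y := by
  simp [val, dsum, fromBlocks_mulVec]

theorem val_dsum' (A : Matrix ι ι ℤ) (B : Matrix κ κ ℤ) (z : ι ⊕ κ → ℤ) :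
    val (dsum A B) z = val A (z ∘ Sum.inl) + val B (z ∘ Sum.inr) := by
  conv_lhs => rw [← Sum.elim_comp_inl_inr z]
  rw [val_dsum]

theorem val_diagonal (d : ι → ℤ) (x : ι → ℤ) : val (diagonal d) x = ∑ i, d i * x i ^ 2 := by
  simp only [val, dotProduct, mulVec_diagonal]
  exact Finset.sum_congr rfl fun i _ => by ring

theorem val_hyp (b : ℤ) (x : Fin 2 → ℤ) : val (hyp b) x = 2 * x 0 * x 1 + b * x 1 ^ 2 := by
  simp [val, hyp, dotProduct, Matrix.mulVec, Fin.sum_univ_two]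
  ring

theorem val_line (a : ℤ) (x : Fin 1 → ℤ) : val (line a) x = a * x 0 ^ 2 := by
  simp [line, val_diagonal]

theorem val_neg (x : ι → ℤ) : val (-A) x = -val A x := by simp [val, Matrix.neg_mulVec]

theorem Iso.exists_val (h : Iso A B) {p : ℤ → Prop} (hp : ∃ x, p (val A x)) :
    ∃ y, p (val B y) := by
  obtain ⟨P, Q, h1, h2, rfl⟩ := h
  obtain ⟨x, hx⟩ := hp
  exact ⟨Q *ᵥ x, by rwa [val_congr, Matrix.mulVec_mulVec, h1, Matrix.one_mulVec]⟩

theorem Iso.indefinite (h : Iso A B) (hA : Indefinite A) : Indefinite B :=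
  ⟨h.exists_val (p := fun v => 0 < v) hA.1, h.exists_val (p := fun v => v < 0) hA.2⟩

theorem Iso.evenForm (h : Iso A B) (hA : EvenForm A) : EvenForm B := fun y => by
  obtain ⟨P, Q, h1, h2, rfl⟩ := h
  rw [val_congr]
  exact hA _

theorem Iso.evenForm_iff (h : Iso A B) : EvenForm A ↔ EvenForm B :=
  ⟨h.evenForm, h.symm.evenForm⟩

theorem Iso.exists_isotropic (h : Iso A B) (hA : ∃ x, x ≠ 0 ∧ val A x = 0) :
    ∃ y, y ≠ 0 ∧ val B y = 0 := by
  obtain ⟨P, Q, h1, h2, rfl⟩ := h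
  obtain ⟨x, hx0, hx⟩ := hA
  refine ⟨Q *ᵥ x, fun e => hx0 ?_, by rwa [val_congr, Matrix.mulVec_mulVec, h1, one_mulVec]⟩
  have := congrArg (fun z => P *ᵥ z) e
  simpa [Matrix.mulVec_mulVec, h1] using this

theorem Iso.card_eq (h : Iso A B) : Fintype.card ι = Fintype.card κ := by
  obtain ⟨P, Q, h1, h2, -⟩ := h
  exact Matrix.square_of_invertible P Q h1 h2

theorem Iso.unimodular (h : Iso A B) (hA : Unimodular A) : Unimodular B := by
  obtain ⟨P, Q, h1, h2, rfl⟩ := h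
  refine ⟨?_, ?_⟩
  · simp [Matrix.IsSymm, Matrix.transpose_mul, hA.1.eq, Matrix.mul_assoc]
  · refine isUnit_det_of_right_inverse (B := Q * A⁻¹ * Qᵀ) ?_
    calc Pᵀ * A * P * (Q * A⁻¹ * Qᵀ) = Pᵀ * A * (P * Q) * A⁻¹ * Qᵀ := by
          simp only [Matrix.mul_assoc]
      _ = Pᵀ * (A * A⁻¹) * Qᵀ := by rw [h1, Matrix.mul_one, Matrix.mul_assoc Pᵀ A]
      _ = 1 := by
          rw [mul_nonsing_inv _ hA.2, Matrix.mul_one, ← Matrix.transpose_mul, h2,
            Matrix.transpose_one]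

theorem Unimodular.dsum (hA : Unimodular A) (hB : Unimodular B) :
    Unimodular (IndefiniteUnimodular.dsum A B) := by
  refine ⟨?_, ?_⟩
  · simp [Matrix.IsSymm, IndefiniteUnimodular.dsum, fromBlocks_transpose, hA.1.eq, hB.1.eq]
  · rw [IndefiniteUnimodular.dsum, det_fromBlocks_zero₂₁]
    exact hA.2.mul hB.2

theorem unimodular_of_dsum (h : Unimodular (dsum A B)) : Unimodular A ∧ Unimodular B := by
  have hd := h.2
  rw [dsum, det_fromBlocks_zero₂₁, IsUnit.mul_iff] at hd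
  refine ⟨⟨?_, hd.1⟩, ?_, hd.2⟩
  · ext i j
    simpa [dsum] using h.1.apply (Sum.inl i) (Sum.inl j)
  · ext i j
    simpa [dsum] using h.1.apply (Sum.inr i) (Sum.inr j)

theorem unimodular_hyp (b : ℤ) : Unimodular (hyp b) := by
  refine ⟨?_, ?_⟩
  · ext i j
    fin_cases i <;> fin_cases j <;> simp [hyp]
  · simp [hyp, Matrix.det_fin_two]

theorem unimodular_line {a : ℤ} (ha : a = 1 ∨ a = -1) : Unimodular (line a) :=
  ⟨Matrix.isSymm_diagonal _, by simp [line, Int.isUnit_iff, ha]⟩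

/-- Evenness is read off the diagonal. -/
theorem evenForm_iff_diag (hA : A.IsSymm) : EvenForm A ↔ ∀ i, Even (A i i) := by
  refine ⟨fun h i => by simpa using h (Pi.single i 1), fun h x => ?_⟩
  rw [← Finset.univ_sum_single x]
  refine Finset.sum_induction _ (fun v => Even (val A v)) (fun a b ha hb => ?_) (by simp)
    (fun i _ => ?_)
  · rw [val_add hA]
    exact (ha.add hb).add (even_two_mul _)
  · rw [show (Pi.single i (x i) : ι → ℤ) = x i • Pi.single i 1 by
      rw [← Pi.single_smul, smul_eq_mul, mul_one], val_smul, val_single]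
    exact (h i).mul_left _

theorem evenForm_dsum_iff : EvenForm (dsum A B) ↔ EvenForm A ∧ EvenForm B := by
  refine ⟨fun h => ⟨fun x => ?_, fun y => ?_⟩, fun h z => ?_⟩
  · simpa [val_dsum] using h (Sum.elim x 0)
  · simpa [val_dsum] using h (Sum.elim 0 y)
  · rw [val_dsum']
    exact (h.1 _).add (h.2 _)

theorem evenForm_plane : EvenForm plane := fun x => by
  rw [plane, val_hyp]
  exact ⟨x 0 * x 1, by ring⟩

theorem not_evenForm_hyp_one : ¬ EvenForm (hyp 1) := fun h => by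
  simpa [val_hyp] using h ![0, 1]

theorem indefinite_hyp (b : ℤ) : Indefinite (hyp b) :=
  ⟨⟨![1 + |b|, 1], by simp [val_hyp]; linarith [abs_nonneg b, neg_abs_le b]⟩,
    ⟨![-(1 + |b|), 1], by simp [val_hyp]; linarith [abs_nonneg b, le_abs_self b]⟩⟩

theorem Indefinite.dsum_left (hA : Indefinite A) :
    Indefinite (IndefiniteUnimodular.dsum A B) := by
  obtain ⟨⟨x, hx⟩, ⟨y, hy⟩⟩ := hA
  exact ⟨⟨Sum.elim x 0, by simpa [val_dsum] using hx⟩, ⟨Sum.elim y 0, by simpa [val_dsum] using hy⟩⟩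

theorem exists_val_ne_zero [Nonempty ι] (hA : Unimodular A) : ∃ x, val A x ≠ 0 := by
  by_contra hne
  push Not at hne
  have h0 : A = 0 := by
    ext i j
    have h := val_add hA.1 (Pi.single i 1) (Pi.single j 1)
    rw [hne, hne, hne] at h
    simpa using h.symm
  simpa [h0, det_zero] using hA.2.ne_zero

end val

end FA.IndefiniteUnimodular
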