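import Fermat.Agent.IndefiniteUnimodular.Signature
import Fermat.Agent.Reduction.Unimodular

/-!
# An indefinite unimodular form represents zero

Up to five variables Hermite's bound gives a primitive vector of value `0` or `±1`; from five
variables on Meyer's theorem applies to a rational diagonalisation.
-/

set_option autoImplicit false
set_option linter.unusedSectionVars false

noncomputable section

namespace FA.IndefiniteUnimodular

open Matrix
open FA.Reduction (bord)

variable {n : ℕ}

/-- The index map `Fin 1 ⊕ Fin n → Fin (n + 1)`. -/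
def oneSum (n : ℕ) : Fin 1 ⊕ Fin n ≃ Fin (n + 1) :=
  Equiv.ofBijective (Sum.elim (fun _ => 0) Fin.succ) <|
    (Fintype.bijective_iff_injective_and_card _).2
      ⟨fun a b => by
        rcases a with a | a <;> rcases b with b | b <;> simp [Fin.ext_iff],
        by simp [add_comm]⟩

theorem iso_bord_zero (a : ℤ) (S : Matrix (Fin n) (Fin n) ℤ) :
    Iso (bord a 0 S) (dsum (line a) S) :=
  iso_submatrix' _ _ (oneSum n) fun i j => by
    rcases i with i | i <;> rcases j with j | j <;>
      simp [oneSum, Equiv.ofBijective, dsum, line]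
    rw [Subsingleton.elim j i, Matrix.diagonal_apply_eq]

theorem val_eq_quad (A : Matrix (Fin n) (Fin n) ℤ) (x : Fin n → ℤ) :
    ((val A x : ℤ) : ℝ) =
      Reduction.quad (A.map fun z : ℤ => (z : ℝ)) fun i => (x i : ℝ) := by
  simp [val, Reduction.quad, dotProduct, Matrix.mulVec]

/-- A primitive vector of value `a = ±1` splits off `a x²`. -/
theorem exists_split_line {A : Matrix (Fin (n + 1)) (Fin (n + 1)) ℤ} (hA : Unimodular A)
    {w : Fin (n + 1) → ℤ} (hw : Reduction.Primitive w) {a : ℤ} (ha : a = 1 ∨ a = -1)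
    (h : val A w = a) :
    ∃ S : Matrix (Fin n) (Fin n) ℤ, Unimodular S ∧ Iso A (dsum (line a) S) := by
  obtain ⟨U, hU, hcol⟩ := Reduction.exists_unimodular_col hw
  have h1 : Reduction.Congr A (Uᵀ * A * U) := ⟨U, hU, rfl⟩
  have h00 : (Uᵀ * A * U) 0 0 = a := by
    rw [Reduction.congr_apply_zero, ← h]
    simp only [hcol, val]
  obtain ⟨l, R, hb⟩ : ∃ l R, Uᵀ * A * U = bord a l R :=
    ⟨_, _, h00 ▸ Reduction.bord_eq (h1.isSymm hA.1)⟩
  have e : l + a • (-a • l) = 0 := by
    rcases ha with rfl | rfl <;> simp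
  have hsh := Reduction.congr_shear a l (-a • l) R
  rw [e] at hsh
  obtain ⟨S, hS⟩ : ∃ S, Reduction.Congr (bord a l R) (bord a 0 S) := ⟨_, hsh⟩
  have hiso := (iso_of_congr (hb ▸ h1 |>.trans hS)).trans (iso_bord_zero a S)
  exact ⟨S, (unimodular_of_dsum (hiso.unimodular hA)).2, hiso⟩

/-- A semidefinite unimodular form in one to five variables takes the value one. -/
theorem exists_val_one {S : Matrix (Fin n) (Fin n) ℤ} (hn0 : 0 < n) (hn : n ≤ 5)
    (hS : Unimodular S) (h : ∀ x, 0 ≤ val S x) : ∃ x, val S x = 1 := by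
  have hpos := posDef_of_nonneg hS h
  have hdet : S.det = 1 := by
    rcases Int.isUnit_iff.1 hS.2 with e | e
    · exact e
    · have hd := hpos.det_pos
      rw [show (S.map fun z : ℤ => (z : ℝ)).det = ((S.det : ℤ) : ℝ) from
        ((Int.castRingHom ℝ).map_det S).symm, e] at hd
      norm_num at hd
  exact (iso_of_congr (Reduction.congr_one_of_unimodular n hn S hpos hdet)).symm.exists_val
    (p := fun v => v = 1) ⟨Pi.single ⟨0, hn0⟩ 1, by simp⟩

theorem isotropic_dsum_line {S : Matrix (Fin n) (Fin n) ℤ} {a : ℤ} {y : Fin n → ℤ}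
    (h : a + val S y = 0) : ∃ x, x ≠ 0 ∧ val (dsum (line a) S) x = 0 :=
  ⟨Sum.elim ![1] y, fun e => by simpa using congrFun e (Sum.inl 0),
    by simpa [val_dsum, val_line] using h⟩

/-- The case of at most five variables, by minima. -/
theorem isotropic_small : ∀ n : ℕ, n ≤ 5 → ∀ A : Matrix (Fin n) (Fin n) ℤ,
    Unimodular A → Indefinite A → ∃ x, x ≠ 0 ∧ val A x = 0 := by
  intro n
  induction n with
  | zero =>
    intro _ A _ hi
    obtain ⟨x, hx⟩ := hi.1
    simp [val, dotProduct] at hx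
  | succ n ih =>
    intro hn A hA hi
    have hdetR : |(A.map fun z : ℤ => (z : ℝ)).det| = 1 := by
      rw [show (A.map fun z : ℤ => (z : ℝ)).det = ((A.det : ℤ) : ℝ) from
        ((Int.castRingHom ℝ).map_det A).symm]
      rcases Int.isUnit_iff.1 hA.2 with e | e <;> simp [e]
    obtain ⟨P, hP, hPd, hPA⟩ := Reduction.exists_majorant (A := A.map fun z : ℤ => (z : ℝ))
      (by rw [Matrix.IsSymm, ← Matrix.transpose_map, hA.1.eq])
      (fun h => by simp [h] at hdetR)
    obtain ⟨v, hv, hle⟩ := Reduction.exists_short_vector n P hP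
    rw [hPd, hdetR, one_pow, mul_one, pow_mul, pow_mul] at hle
    have h5 := le_of_pow_le_pow_left₀ (Nat.succ_ne_zero n) (by positivity) hle
    have h6 : (4 / 3 : ℝ) ^ n ≤ (4 / 3) ^ 4 := pow_le_pow_right₀ (by norm_num) (by omega)
    norm_num at h5 h6
    have hlt : Reduction.quad P (fun i => (v i : ℝ)) < 2 := by
      nlinarith [Reduction.quad_nonneg hP fun i => (v i : ℝ)]
    have hbd : |val A v| ≤ 1 := by
      have h := (hPA fun i => (v i : ℝ)).trans_lt hlt
      rw [← val_eq_quad, ← Int.cast_abs] at h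
      have h' : |val A v| < 2 := by exact_mod_cast h
      omega
    rcases eq_or_ne (val A v) 0 with hz | hz
    · exact ⟨v, hv, hz⟩
    obtain ⟨g, w, hg, hw, rfl⟩ := Reduction.exists_primitive_smul hv
    rw [val_smul] at hbd hz
    have hw1 : val A w = 1 ∨ val A w = -1 := by
      have hw0 : val A w ≠ 0 := right_ne_zero_of_mul hz
      have hg1 : 1 ≤ g ^ 2 := by nlinarith [sq_pos_of_ne_zero hg]
      rw [abs_mul, abs_of_nonneg (sq_nonneg g)] at hbd
      have : |val A w| ≤ 1 := by nlinarith [abs_nonneg (val A w)]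
      have := abs_le.1 this
      omega
    obtain ⟨a, ha, hwa⟩ : ∃ a, (a = 1 ∨ a = -1) ∧ val A w = a := ⟨_, hw1, rfl⟩
    obtain ⟨S, hS, hiso⟩ := exists_split_line hA hw ha hwa
    refine hiso.symm.exists_isotropic ?_
    by_cases hSi : Indefinite S
    · obtain ⟨y, hy, hy0⟩ := ih (by omega) S hS hSi
      refine ⟨Sum.elim 0 y, fun e => hy (funext fun i => ?_), by simp [val_dsum, hy0]⟩
      simpa using congrFun e (Sum.inr i)
    obtain ⟨⟨xp, hxp⟩, ⟨xn, hxn⟩⟩ := hiso.indefinite hi
    rw [val_dsum', val_line] at hxp hxn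
    rcases ha with rfl | rfl
    · have hle : ∀ y, val S y ≤ 0 := fun y => not_lt.1 fun hy =>
        hSi ⟨⟨y, hy⟩, ⟨xn ∘ Sum.inr, by nlinarith⟩⟩
      have hn0 : 0 < n := by
        rcases Nat.eq_zero_or_pos n with rfl | h
        · simp [val, dotProduct] at hxn
          nlinarith
        · exact h
      obtain ⟨y, hy⟩ := exists_val_one (S := -S) hn0 (by omega)
        ⟨hS.1.neg, by rw [det_neg]; exact (isUnit_one.neg.pow _).mul hS.2⟩
        fun y => by rw [val_neg]; linarith [hle y]
      rw [val_neg] at hy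
      exact isotropic_dsum_line (y := y) (by linarith)
    · have hge : ∀ y, 0 ≤ val S y := fun y => not_lt.1 fun hy =>
        hSi ⟨⟨xp ∘ Sum.inr, by nlinarith⟩, ⟨y, hy⟩⟩
      have hn0 : 0 < n := by
        rcases Nat.eq_zero_or_pos n with rfl | h
        · simp [val, dotProduct] at hxp
          nlinarith
        · exact h
      obtain ⟨y, hy⟩ := exists_val_one hn0 (by omega) hS hge
      exact isotropic_dsum_line (y := y) (by linarith)

/-- **An indefinite unimodular form has a nontrivial integral zero.** -/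
theorem exists_isotropic {ι : Type*} [Fintype ι] [DecidableEq ι] {A : Matrix ι ι ℤ}
    (hA : Unimodular A) (hi : Indefinite A) : ∃ x, x ≠ 0 ∧ val A x = 0 := by
  obtain ⟨B, hB⟩ := exists_iso_fin A
  refine hB.symm.exists_isotropic ?_
  rcases le_or_gt (Fintype.card ι) 5 with h | h
  · exact isotropic_small _ h B (hB.unimodular hA) (hB.indefinite hi)
  obtain ⟨m, w, hw⟩ := exists_ratDiag (hB.unimodular hA).1
  have hm : 5 ≤ Fintype.card (Fin m) := by
    rw [hw.card_eq, Fintype.card_fin]
    exact h.le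
  have hw0 := hw.weight_ne_zero (hB.unimodular hA)
  obtain ⟨hp, hn⟩ := (indefinite_iff_index (hB.unimodular hA).1).1 (hB.indefinite hi)
  rw [hw.posIndex_eq, Finset.card_pos] at hp
  rw [hw.negIndex_eq, Finset.card_pos] at hn
  obtain ⟨i, hi'⟩ := hp
  obtain ⟨j, hj'⟩ := hn
  simp only [Finset.mem_filter, Finset.mem_univ, true_and] at hi' hj'
  obtain ⟨z, hz, hz0⟩ := (QuadForms.isotropic_of_five hm w).2 ((QuadForms.isotropic_real_iff
    fun k => Rat.cast_ne_zero.2 (hw0 k)).2
      ⟨⟨i, by exact_mod_cast hi'⟩, ⟨j, by exact_mod_cast hj'⟩⟩)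
  obtain ⟨N, y, hN, hy, hy0⟩ := hw.lift z
  refine ⟨y, fun e => hz (hy0 e), ?_⟩
  rw [hz0, mul_zero] at hy
  exact_mod_cast hy

end FA.IndefiniteUnimodular
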