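import Fermat.Agent.IndefiniteUnimodular.Basic
import Fermat.Agent.QuadForms.Corollaries
import Fermat.Agent.QuadForms.Diagonal
import Fermat.Agent.Reduction.Hermite
import Mathlib.LinearAlgebra.Matrix.ToLinearEquiv
import Mathlib.LinearAlgebra.QuadraticForm.Signature
import Mathlib.RingTheory.Localization.Integer

/-!
# The signature

The indices of inertia of an integral form are those of the real quadratic form it defines. A
rational diagonalisation computes them and decides definiteness on integer vectors.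
-/

set_option autoImplicit false
set_option linter.unusedSectionVars false

noncomputable section

namespace FA.IndefiniteUnimodular

open Matrix

variable {ι κ μ ν : Type*} [Fintype ι] [DecidableEq ι] [Fintype κ] [DecidableEq κ]
  [Fintype μ] [DecidableEq μ] [Fintype ν] [DecidableEq ν]

/-- The real quadratic form of an integer matrix. -/
def realForm (A : Matrix ι ι ℤ) : QuadraticForm ℝ (ι → ℝ) :=
  (A.map fun z : ℤ => (z : ℝ)).toQuadraticForm'

/-- The positive index of inertia. -/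
def posIndex (A : Matrix ι ι ℤ) : ℕ := sigPos (realForm A)

/-- The negative index of inertia. -/
def negIndex (A : Matrix ι ι ℤ) : ℕ := sigNeg (realForm A)

theorem realForm_apply (A : Matrix ι ι ℤ) (x : ι → ℝ) :
    realForm A x = x ⬝ᵥ (A.map (fun z : ℤ => (z : ℝ)) *ᵥ x) := by
  rw [realForm, Matrix.toQuadraticForm', LinearMap.BilinMap.toQuadraticMap_apply,
    Matrix.toLinearMap₂'_apply']

/-- A rational diagonalisation of `A` with weights `w`. -/
def RatDiag (A : Matrix ι ι ℤ) (w : κ → ℚ) : Prop :=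
  ∃ (P : Matrix κ ι ℚ) (R : Matrix ι κ ℚ),
    R * P = 1 ∧ P * R = 1 ∧ A.map (fun z : ℤ => (z : ℚ)) = Pᵀ * diagonal w * P

theorem exists_ratDiag {A : Matrix ι ι ℤ} (hA : A.IsSymm) :
    ∃ (m : ℕ) (w : Fin m → ℚ), RatDiag A w := by
  obtain ⟨m, w, P, R, h1, h2, h3⟩ :=
    FA.QuadForms.exists_diagonalisation (A.map fun z : ℤ => (z : ℚ))
  refine ⟨m, w, P, R, h1, h2, ?_⟩
  rw [h3]
  ext i j
  simp only [FA.QuadForms.symPart, Matrix.smul_apply, Matrix.add_apply, Matrix.transpose_apply,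
    Matrix.map_apply, hA.apply i j, smul_eq_mul]
  ring

theorem ratDiag_diagonal (d : ι → ℤ) : RatDiag (diagonal d) fun i => (d i : ℚ) :=
  ⟨1, 1, by simp, by simp, by simp [diagonal_map]⟩

theorem RatDiag.dsum {A : Matrix ι ι ℤ} {B : Matrix μ μ ℤ} {w : κ → ℚ} {w' : ν → ℚ}
    (h : RatDiag A w) (h' : RatDiag B w') :
    RatDiag (IndefiniteUnimodular.dsum A B) (Sum.elim w w') := by
  obtain ⟨P, R, h1, h2, h3⟩ := h
  obtain ⟨P', R', h1', h2', h3'⟩ := h'
  refine ⟨fromBlocks P 0 0 P', fromBlocks R 0 0 R', ?_, ?_, ?_⟩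
  · simp [fromBlocks_multiply, h1, h1', fromBlocks_one]
  · simp [fromBlocks_multiply, h2, h2', fromBlocks_one]
  · simp [IndefiniteUnimodular.dsum, fromBlocks_map, ← fromBlocks_diagonal, fromBlocks_transpose,
      fromBlocks_multiply, h3, h3']

theorem RatDiag.neg {A : Matrix ι ι ℤ} {w : κ → ℚ} (h : RatDiag A w) : RatDiag (-A) (-w) := by
  obtain ⟨P, R, h1, h2, h3⟩ := h
  refine ⟨P, R, h1, h2, ?_⟩
  rw [show diagonal (-w) = -diagonal w from (diagonal_neg w).symm, Matrix.mul_neg, Matrix.neg_mul,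
    ← h3]
  ext i j
  simp

theorem RatDiag.blockDiagonal {o : Type*} [Fintype o] [DecidableEq o] {A : Matrix ι ι ℤ}
    {w : κ → ℚ} (h : RatDiag A w) :
    RatDiag (Matrix.blockDiagonal fun _ : o => A) (fun p : κ × o => w p.1) := by
  obtain ⟨P, R, h1, h2, h3⟩ := h
  refine ⟨Matrix.blockDiagonal fun _ => P, Matrix.blockDiagonal fun _ => R, ?_, ?_, ?_⟩
  · rw [← blockDiagonal_mul, h1]
    exact blockDiagonal_one
  · rw [← blockDiagonal_mul, h2]
    exact blockDiagonal_one
  · rw [← blockDiagonal_diagonal fun _ => w, blockDiagonal_transpose, ← blockDiagonal_mul,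
      ← blockDiagonal_mul, blockDiagonal_map _ _ (by simp)]
    simp only [h3]

variable {A : Matrix ι ι ℤ} {w : κ → ℚ}

theorem RatDiag.equivalent (h : RatDiag A w) :
    (realForm A).Equivalent (QuadraticMap.weightedSumSquares ℝ fun i => (w i : ℝ)) := by
  obtain ⟨P, R, h1, h2, h3⟩ := h
  have m1 : R.map (Rat.castHom ℝ) * P.map (Rat.castHom ℝ) = 1 := by
    rw [← Matrix.map_mul, h1, Matrix.map_one _ (map_zero _) (map_one _)]
  have m2 : P.map (Rat.castHom ℝ) * R.map (Rat.castHom ℝ) = 1 := by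
    rw [← Matrix.map_mul, h2, Matrix.map_one _ (map_zero _) (map_one _)]
  have hA : A.map (fun z : ℤ => (z : ℝ)) = (P.map (Rat.castHom ℝ))ᵀ *
      diagonal (fun i => (w i : ℝ)) * P.map (Rat.castHom ℝ) := by
    have h := congrArg (fun M : Matrix ι ι ℚ => M.map (Rat.castHom ℝ)) h3
    simp only [Matrix.map_mul, Matrix.map_map, diagonal_map (map_zero (Rat.castHom ℝ)),
      Matrix.transpose_map] at h
    refine Eq.trans ?_ h
    ext i j
    simp
  refine ⟨{ Matrix.toLin'OfInv m1 m2 with map_app' := fun x => ?_ }⟩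
  change QuadraticMap.weightedSumSquares ℝ _ (P.map (Rat.castHom ℝ) *ᵥ x) = realForm A x
  rw [realForm_apply, hA, ← Matrix.mulVec_mulVec, ← Matrix.mulVec_mulVec,
    dotProduct_transpose_mulVec, QuadraticMap.weightedSumSquares_apply]
  simp only [dotProduct, mulVec_diagonal, smul_eq_mul]
  exact Finset.sum_congr rfl fun i _ => by ring

theorem RatDiag.posIndex_eq (h : RatDiag A w) :
    posIndex A = (Finset.univ.filter fun i => 0 < w i).card := by
  rw [posIndex, QuadraticForm.sigPos_of_equiv_weightedSumSquares h.equivalent,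
    Set.ncard_eq_toFinset_card']
  congr 1
  ext i
  simp

theorem RatDiag.negIndex_eq (h : RatDiag A w) :
    negIndex A = (Finset.univ.filter fun i => w i < 0).card := by
  rw [negIndex, QuadraticForm.sigNeg_of_equiv_weightedSumSquares h.equivalent,
    Set.ncard_eq_toFinset_card']
  congr 1
  ext i
  simp

theorem RatDiag.card_eq (h : RatDiag A w) : Fintype.card κ = Fintype.card ι := by
  obtain ⟨P, R, h1, h2, -⟩ := h
  exact Matrix.square_of_invertible P R h2 h1

theorem RatDiag.weight_ne_zero (h : RatDiag A w) (hA : Unimodular A) (i : κ) : w i ≠ 0 := by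
  obtain ⟨P, R, h1, h2, h3⟩ := h
  have e : Rᵀ * A.map (fun z : ℤ => (z : ℚ)) * R = diagonal w := by
    rw [h3, show Rᵀ * (Pᵀ * diagonal w * P) * R = (Rᵀ * Pᵀ) * diagonal w * (P * R) by
      simp only [Matrix.mul_assoc], ← Matrix.transpose_mul, h2]
    simp
  have hAinv : A.map (fun z : ℤ => (z : ℚ)) * A⁻¹.map (fun z : ℤ => (z : ℚ)) = 1 := by
    have h := (Matrix.map_mul (f := Int.castRingHom ℚ) (L := A) (M := A⁻¹)).symm
    rw [mul_nonsing_inv _ hA.2] at h
    simpa using h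
  have hu : IsUnit (diagonal w).det := by
    refine isUnit_det_of_right_inverse (B := P * A⁻¹.map (fun z : ℤ => (z : ℚ)) * Pᵀ) ?_
    rw [← e]
    calc Rᵀ * A.map (fun z : ℤ => (z : ℚ)) * R * (P * A⁻¹.map (fun z : ℤ => (z : ℚ)) * Pᵀ)
        = Rᵀ * (A.map (fun z : ℤ => (z : ℚ)) * (R * P) * A⁻¹.map (fun z : ℤ => (z : ℚ))) * Pᵀ := by
          simp only [Matrix.mul_assoc]
      _ = 1 := by
          rw [h1, Matrix.mul_one, hAinv, Matrix.mul_one, ← Matrix.transpose_mul, h2,
            Matrix.transpose_one]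
  rw [det_diagonal, isUnit_iff_ne_zero, Finset.prod_ne_zero_iff] at hu
  exact hu i (Finset.mem_univ i)

theorem posIndex_add_negIndex (hA : Unimodular A) :
    posIndex A + negIndex A = Fintype.card ι := by
  obtain ⟨m, w, h⟩ := exists_ratDiag hA.1
  rw [h.posIndex_eq, h.negIndex_eq, ← h.card_eq, ← Finset.card_univ (α := Fin m),
    ← Finset.card_filter_add_card_filter_not (s := Finset.univ) (fun i => 0 < w i)]
  congr 1
  refine congrArg Finset.card (Finset.filter_congr fun i _ => ?_)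
  exact ⟨fun hi => hi.not_gt, fun hi => lt_of_le_of_ne (not_lt.1 hi) (h.weight_ne_zero hA i)⟩

theorem Iso.equivalent_realForm {B : Matrix κ κ ℤ} (h : Iso A B) :
    (realForm A).Equivalent (realForm B) := by
  obtain ⟨P, Q, h1, h2, rfl⟩ := h
  have m1 : (P.map (Int.castRingHom ℝ)) * Q.map (Int.castRingHom ℝ) = 1 := by
    rw [← Matrix.map_mul, h1, Matrix.map_one _ (map_zero _) (map_one _)]
  have m2 : (Q.map (Int.castRingHom ℝ)) * P.map (Int.castRingHom ℝ) = 1 := by
    rw [← Matrix.map_mul, h2, Matrix.map_one _ (map_zero _) (map_one _)]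
  refine ⟨{ Matrix.toLin'OfInv m1 m2 with map_app' := fun x => ?_ }⟩
  change realForm (Pᵀ * A * P) (Q.map (Int.castRingHom ℝ) *ᵥ x) = realForm A x
  rw [realForm_apply, realForm_apply,
    show (Pᵀ * A * P).map (fun z : ℤ => (z : ℝ)) = (P.map (Int.castRingHom ℝ))ᵀ *
      A.map (fun z : ℤ => (z : ℝ)) * P.map (Int.castRingHom ℝ) by
        ext i j; simp [Matrix.mul_apply],
    ← Matrix.mulVec_mulVec, ← Matrix.mulVec_mulVec, dotProduct_transpose_mulVec,
    show P.map (Int.castRingHom ℝ) *ᵥ (Q.map (Int.castRingHom ℝ) *ᵥ x) = x by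
      rw [Matrix.mulVec_mulVec, m1, Matrix.one_mulVec], dotProduct_comm]

theorem Iso.posIndex_eq {B : Matrix κ κ ℤ} (h : Iso A B) : posIndex A = posIndex B :=
  QuadraticMap.Equivalent.sigPos_eq h.equivalent_realForm

theorem Iso.negIndex_eq {B : Matrix κ κ ℤ} (h : Iso A B) : negIndex A = negIndex B :=
  QuadraticMap.Equivalent.sigNeg_eq h.equivalent_realForm

theorem posIndex_dsum {B : Matrix μ μ ℤ} (hA : A.IsSymm) (hB : B.IsSymm) :
    posIndex (dsum A B) = posIndex A + posIndex B := by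
  obtain ⟨m, w, h⟩ := exists_ratDiag hA
  obtain ⟨m', w', h'⟩ := exists_ratDiag hB
  rw [(h.dsum h').posIndex_eq, h.posIndex_eq, h'.posIndex_eq]
  simp only [Finset.card_filter, Fintype.sum_sum_type, Sum.elim_inl, Sum.elim_inr]
  congr! 3

theorem negIndex_dsum {B : Matrix μ μ ℤ} (hA : A.IsSymm) (hB : B.IsSymm) :
    negIndex (dsum A B) = negIndex A + negIndex B := by
  obtain ⟨m, w, h⟩ := exists_ratDiag hA
  obtain ⟨m', w', h'⟩ := exists_ratDiag hB
  rw [(h.dsum h').negIndex_eq, h.negIndex_eq, h'.negIndex_eq]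
  simp only [Finset.card_filter, Fintype.sum_sum_type, Sum.elim_inl, Sum.elim_inr]
  congr! 3

theorem posIndex_neg (hA : A.IsSymm) : posIndex (-A) = negIndex A := by
  obtain ⟨m, w, h⟩ := exists_ratDiag hA
  rw [h.neg.posIndex_eq, h.negIndex_eq]
  simp

theorem negIndex_neg (hA : A.IsSymm) : negIndex (-A) = posIndex A := by
  obtain ⟨m, w, h⟩ := exists_ratDiag hA
  rw [h.neg.negIndex_eq, h.posIndex_eq]
  simp

theorem exists_clear_denominators (x : ι → ℚ) :
    ∃ (N : ℤ) (y : ι → ℤ), 0 < N ∧ ∀ i, (y i : ℚ) = N * x i := by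
  obtain ⟨⟨b, hb⟩, h⟩ := IsLocalization.exist_integer_multiples_of_finite (nonZeroDivisors ℤ) x
  choose y hy using h
  have hb0 : b ≠ 0 := nonZeroDivisors.ne_zero hb
  refine ⟨b ^ 2, fun i => b * y i, by positivity, fun i => ?_⟩
  have e : ((y i : ℤ) : ℚ) = (b : ℚ) * x i := by simpa using hy i
  push_cast
  rw [e]
  ring

theorem cast_val (A : Matrix ι ι ℤ) (x : ι → ℤ) :
    (val A x : ℚ) = (fun i => (x i : ℚ)) ⬝ᵥ (A.map (fun z : ℤ => (z : ℚ)) *ᵥ fun i => (x i : ℚ)) :=
  by simp [val, dotProduct, Matrix.mulVec]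

theorem RatDiag.sum_sq (h : RatDiag A w) :
    ∃ P : Matrix κ ι ℚ, ∀ x : ι → ℤ,
      (val A x : ℚ) = ∑ i, w i * (P *ᵥ fun j => (x j : ℚ)) i ^ 2 := by
  obtain ⟨P, R, h1, h2, h3⟩ := h
  refine ⟨P, fun x => ?_⟩
  rw [cast_val, h3, ← Matrix.mulVec_mulVec, ← Matrix.mulVec_mulVec, dotProduct_transpose_mulVec]
  simp only [dotProduct, mulVec_diagonal]
  exact Finset.sum_congr rfl fun i _ => by ring

/-- A value of the diagonal form is, up to a positive factor, an integral value. -/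
theorem RatDiag.lift (h : RatDiag A w) (z : κ → ℚ) :
    ∃ (N : ℤ) (y : ι → ℤ), 0 < N ∧ (val A y : ℚ) = N ^ 2 * ∑ i, w i * z i ^ 2 ∧
      (y = 0 → z = 0) := by
  obtain ⟨P, R, h1, h2, h3⟩ := h
  obtain ⟨N, y, hN, hy⟩ := exists_clear_denominators (R *ᵥ z)
  have hN' : (N : ℚ) ≠ 0 := Int.cast_ne_zero.2 hN.ne'
  have hy' : (fun i => (y i : ℚ)) = (N : ℚ) • (R *ᵥ z) := funext hy
  refine ⟨N, y, hN, ?_, fun hy0 => ?_⟩
  · rw [cast_val, hy', Matrix.mulVec_smul, dotProduct_smul, smul_dotProduct, h3,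
      ← Matrix.mulVec_mulVec, ← Matrix.mulVec_mulVec, Matrix.mulVec_mulVec z P R, h2,
      Matrix.one_mulVec, dotProduct_transpose_mulVec, Matrix.mulVec_mulVec z P R, h2,
      Matrix.one_mulVec, smul_eq_mul, smul_eq_mul, ← mul_assoc, ← sq]
    simp only [dotProduct, mulVec_diagonal]
    exact congrArg _ (Finset.sum_congr rfl fun i _ => by ring)
  · have e : (N : ℚ) • (R *ᵥ z) = 0 := by rw [← hy', hy0]; ext; simp
    have e' := congrArg (fun v => P *ᵥ v) ((smul_eq_zero.1 e).resolve_left hN')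
    simpa [Matrix.mulVec_mulVec, h2] using e'

theorem posIndex_pos_iff (hA : A.IsSymm) : 0 < posIndex A ↔ ∃ x, 0 < val A x := by
  obtain ⟨m, w, h⟩ := exists_ratDiag hA
  rw [h.posIndex_eq, Finset.card_pos]
  constructor
  · rintro ⟨i, hi⟩
    simp only [Finset.mem_filter, Finset.mem_univ, true_and] at hi
    obtain ⟨N, y, hN, hy, -⟩ := h.lift (Pi.single i 1)
    refine ⟨y, ?_⟩
    rw [← Int.cast_pos (R := ℚ), hy]
    have : ∑ j, w j * (Pi.single i (1 : ℚ) : Fin m → ℚ) j ^ 2 = w i := by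
      simp [Pi.single_apply]
    rw [this]
    positivity
  · rintro ⟨x, hx⟩
    obtain ⟨P, hP⟩ := h.sum_sq
    have hx' : (0 : ℚ) < ∑ i, w i * (P *ᵥ fun j => (x j : ℚ)) i ^ 2 := by
      rw [← hP]
      exact_mod_cast hx
    obtain ⟨i, -, hi⟩ := Finset.exists_lt_of_sum_lt (s := Finset.univ) (f := fun _ => (0 : ℚ))
      (g := fun i => w i * (P *ᵥ fun j => (x j : ℚ)) i ^ 2) (by simpa using hx')
    exact ⟨i, by simpa using pos_of_mul_pos_left hi (sq_nonneg _)⟩

theorem negIndex_pos_iff (hA : A.IsSymm) : 0 < negIndex A ↔ ∃ x, val A x < 0 := by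
  rw [← posIndex_neg hA, posIndex_pos_iff hA.neg]
  simp [val_neg]

theorem indefinite_iff_index (hA : A.IsSymm) :
    Indefinite A ↔ 0 < posIndex A ∧ 0 < negIndex A := by
  rw [posIndex_pos_iff hA, negIndex_pos_iff hA]
  rfl

theorem posIndex_hyp (b : ℤ) : posIndex (hyp b) = 1 ∧ negIndex (hyp b) = 1 := by
  have h := posIndex_add_negIndex (unimodular_hyp b)
  obtain ⟨hp, hn⟩ := (indefinite_iff_index (unimodular_hyp b).1).1 (indefinite_hyp b)
  simp only [Fintype.card_fin] at h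
  omega

/-- A semidefinite unimodular form is positive definite over the reals. -/
theorem posDef_of_nonneg {n : ℕ} {A : Matrix (Fin n) (Fin n) ℤ} (hA : Unimodular A)
    (h : ∀ x, 0 ≤ val A x) : (A.map fun z : ℤ => (z : ℝ)).PosDef := by
  have hneg : negIndex A = 0 := by
    by_contra hne
    obtain ⟨x, hx⟩ := (negIndex_pos_iff hA.1).1 (Nat.pos_of_ne_zero hne)
    exact absurd (h x) (not_le.2 hx)
  obtain ⟨m, w, hw⟩ := exists_ratDiag hA.1
  rw [hw.negIndex_eq, Finset.card_eq_zero, Finset.filter_eq_empty_iff] at hneg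
  have hpos : ∀ i, 0 < w i := fun i =>
    lt_of_le_of_ne (not_lt.1 (hneg (Finset.mem_univ i))) (hw.weight_ne_zero hA i).symm
  obtain ⟨e⟩ := hw.equivalent
  refine Reduction.posDef_iff_quad.2 ⟨?_, fun x hx => ?_⟩
  · rw [Matrix.IsSymm, ← Matrix.transpose_map, hA.1.eq]
  · have he := e.map_app x
    rw [QuadraticMap.weightedSumSquares_apply, realForm_apply] at he
    rw [Reduction.quad, ← he]
    obtain ⟨i, hi⟩ : ∃ i, e x i ≠ 0 := by
      by_contra hne
      push Not at hne
      exact hx (e.toLinearEquiv.map_eq_zero_iff.1 (funext hne))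
    refine Finset.sum_pos' (fun j _ => ?_) ⟨i, Finset.mem_univ i, ?_⟩
    · exact smul_nonneg (Rat.cast_nonneg.2 (hpos j).le) (mul_self_nonneg _)
    · exact smul_pos (Rat.cast_pos.2 (hpos i)) (mul_self_pos.2 hi)

end FA.IndefiniteUnimodular
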