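import Fermat.Agent.IndefiniteUnimodular.Isotropic

/-!
# Splitting off a plane, and the odd forms

An indefinite unimodular form is `(0 1; 1 b) ⊕ M`, with `b = 1` when it is odd and `b = 0` when it
is even; by induction an odd one is a diagonal of signs.
-/

set_option autoImplicit false
set_option linter.unusedSectionVars false

noncomputable section

namespace FA.IndefiniteUnimodular

open Matrix
open FA.Reduction (bord)

variable {ι κ μ : Type*} [Fintype ι] [DecidableEq ι] [Fintype κ] [DecidableEq κ]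
  [Fintype μ] [DecidableEq μ] {n : ℕ}

/-- The index map `Fin 2 ⊕ Fin n → Fin (n + 2)`. -/
def twoSum (n : ℕ) : Fin 2 ⊕ Fin n ≃ Fin (n + 2) :=
  Equiv.ofBijective (Sum.elim ![0, (0 : Fin (n + 1)).succ] fun j => j.succ.succ) <|
    (Fintype.bijective_iff_injective_and_card _).2
      ⟨fun a b => by
        rcases a with a | a <;> rcases b with b | b <;>
          first
            | (fin_cases a <;> fin_cases b <;> simp)
            | (fin_cases a <;> simp [Fin.ext_iff])
            | (fin_cases b <;> simp [Fin.ext_iff])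
            | simp [Fin.ext_iff],
        by simp [add_comm]⟩

theorem iso_bord_plane (b : ℤ) (R : Matrix (Fin n) (Fin n) ℤ) :
    Iso (bord 0 (Fin.cons 1 0) (bord b 0 R)) (dsum (hyp b) R) :=
  iso_submatrix' _ _ (twoSum n) fun i j => by
    have e0 : twoSum n (Sum.inl 0) = 0 := rfl
    have e1 : twoSum n (Sum.inl 1) = (0 : Fin (n + 1)).succ := rfl
    have e2 : ∀ k, twoSum n (Sum.inr k) = k.succ.succ := fun _ => rfl
    rcases i with i | i <;> rcases j with j | j
    · fin_cases i <;> fin_cases j <;>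
        simp only [Fin.zero_eta, Fin.mk_one, e0, e1, Reduction.bord_zero_zero,
          Reduction.bord_zero_succ, Reduction.bord_succ_zero, Reduction.bord_succ_succ,
          Fin.cons_zero] <;> simp [dsum, hyp]
    · fin_cases i <;>
        simp only [Fin.zero_eta, Fin.mk_one, e0, e1, e2, Reduction.bord_zero_succ,
          Reduction.bord_succ_succ, Fin.cons_succ] <;> simp [dsum]
    · fin_cases j <;>
        simp only [Fin.zero_eta, Fin.mk_one, e0, e1, e2, Reduction.bord_succ_zero,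
          Reduction.bord_succ_succ, Fin.cons_succ] <;> simp [dsum]
    · simp [e2, dsum]

/-- A basis starting at `w` on which the functional `l`, with `l · w = 1`, is the first
coordinate. -/
theorem exists_adapted_basis {l w : Fin (n + 1) → ℤ} (h : l ⬝ᵥ w = 1) :
    ∃ V : Matrix (Fin (n + 1)) (Fin (n + 1)) ℤ, IsUnit V.det ∧ (∀ i, V i 0 = w i) ∧
      Vᵀ *ᵥ l = Fin.cons 1 0 := by
  have hw : Reduction.Primitive w := fun g hg => by
    refine isUnit_of_dvd_one ?_
    rw [← h]
    exact Finset.dvd_sum fun i _ => (hg i).mul_left _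
  obtain ⟨V, hV, hcol⟩ := Reduction.exists_unimodular_col hw
  obtain ⟨c, hc⟩ : ∃ c, c = Vᵀ *ᵥ l := ⟨_, rfl⟩
  have hc0 : c 0 = 1 := by
    rw [hc, ← h]
    simp [Matrix.mulVec, dotProduct, hcol, mul_comm]
  refine ⟨V * Reduction.shearBy (fun j => -c j.succ), ?_, fun i => ?_, ?_⟩
  · rw [det_mul, Reduction.det_shearBy, mul_one]
    exact hV
  · simp [Matrix.mul_apply, Fin.sum_univ_succ, hcol]
  · rw [Matrix.transpose_mul, ← Matrix.mulVec_mulVec, ← hc]
    funext i
    refine Fin.cases ?_ (fun i => ?_) i <;>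
      simp [Matrix.mulVec, dotProduct, Fin.sum_univ_succ, hc0, Matrix.one_apply]

theorem exists_split_fin {A : Matrix (Fin (n + 1)) (Fin (n + 1)) ℤ} (hA : Unimodular A)
    (hiso : ∃ x, x ≠ 0 ∧ val A x = 0) :
    ∃ (b : ℤ) (k : ℕ) (M : Matrix (Fin k) (Fin k) ℤ),
      (b = 0 ∨ b = 1) ∧ (¬ EvenForm A → b = 1) ∧ Iso A (dsum (hyp b) M) := by
  obtain ⟨v, hv, hv0⟩ := hiso
  obtain ⟨g, w, hg, hw, rfl⟩ := Reduction.exists_primitive_smul hv
  rw [val_smul] at hv0
  have hw0 : val A w = 0 := (mul_eq_zero.1 hv0).resolve_left (pow_ne_zero 2 hg)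
  obtain ⟨U, hU, hcol⟩ := Reduction.exists_unimodular_col hw
  have h1 : Reduction.Congr A (Uᵀ * A * U) := ⟨U, hU, rfl⟩
  have h00 : (Uᵀ * A * U) 0 0 = 0 := by
    rw [Reduction.congr_apply_zero, ← hw0]
    simp only [hcol, val]
  obtain ⟨l, R, hb⟩ : ∃ l R, Uᵀ * A * U = bord 0 l R :=
    ⟨_, _, h00 ▸ Reduction.bord_eq (h1.isSymm hA.1)⟩
  rw [hb] at h1
  have hB := (iso_of_congr h1).unimodular hA
  have hRs : R.IsSymm := Reduction.isSymm_of_bord hB.1
  cases n with
  | zero =>
    have e := hB.2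
    rw [Matrix.det_fin_one, Reduction.bord_zero_zero] at e
    exact absurd e not_isUnit_zero
  | succ m =>
    -- `l` is primitive
    have hl : ∃ w₀, l ⬝ᵥ w₀ = 1 := by
      obtain ⟨y, hy⟩ : ∃ y, y = (bord 0 l R)⁻¹ *ᵥ (Pi.single 0 1) := ⟨_, rfl⟩
      have e : bord 0 l R *ᵥ y = Pi.single 0 1 := by
        rw [hy, Matrix.mulVec_mulVec, mul_nonsing_inv _ hB.2, Matrix.one_mulVec]
      refine ⟨fun j => y j.succ, ?_⟩
      have e' := congrFun e 0
      simpa [Matrix.mulVec, dotProduct, Fin.sum_univ_succ] using e'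
    obtain ⟨w₀, hw₀⟩ := hl
    -- an odd value with `l · w = 1`
    obtain ⟨w', hw', hodd⟩ : ∃ w', l ⬝ᵥ w' = 1 ∧ (¬ EvenForm A → ¬ Even (val R w')) := by
      by_cases hR : EvenForm R
      · refine ⟨w₀, hw₀, fun h => absurd ((iso_of_congr h1).symm.evenForm ?_) h⟩
        rw [evenForm_iff_diag hB.1]
        intro i
        refine Fin.cases (by simp) (fun i => ?_) i
        simpa using hR (Pi.single i 1)
      · obtain ⟨t, ht⟩ := not_forall.1 hR
        by_cases hw₀e : Even (val R w₀)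
        · refine ⟨t + (1 - l ⬝ᵥ t) • w₀, ?_, fun _ => ?_⟩
          · rw [dotProduct_add, dotProduct_smul, hw₀, smul_eq_mul, mul_one]
            ring
          · rw [val_add hRs, val_smul]
            simp [parity_simps, ht, hw₀e]
        · exact ⟨w₀, hw₀, fun _ => hw₀e⟩
    obtain ⟨V, hV, hVcol, hVl⟩ := exists_adapted_basis hw'
    have h2 := Reduction.congr_block (0 : ℤ) l R hV
    rw [hVl] at h2
    obtain ⟨x, y, R', hxy⟩ : ∃ x y R', Vᵀ * R * V = bord x y R' := ⟨_, _, _, Reduction.bord_eq (by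
      simp [Matrix.IsSymm, Matrix.transpose_mul, hRs.eq, Matrix.mul_assoc])⟩
    have hx : x = val R w' := by
      rw [← Reduction.bord_zero_zero x y R', ← hxy, Reduction.congr_apply_zero]
      simp only [hVcol, val]
    obtain ⟨k, hk⟩ : ∃ k : Fin (m + 1) → ℤ, k = Fin.cons (-(x / 2)) (-y) := ⟨_, rfl⟩
    have e3 : bord x y R' + vecMulVec (Fin.cons (1 : ℤ) (0 : Fin m → ℤ)) k +
        vecMulVec k (Fin.cons (1 : ℤ) 0) + (0 : ℤ) • vecMulVec k k = bord (x % 2) 0 R' := by
      ext i j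
      refine Fin.cases ?_ (fun i => ?_) i <;> refine Fin.cases ?_ (fun j => ?_) j <;>
        simp [hk, vecMulVec_apply]
      omega
    have h3 := Reduction.congr_shear (0 : ℤ) (Fin.cons (1 : ℤ) (0 : Fin m → ℤ)) k (bord x y R')
    rw [e3, zero_smul, add_zero] at h3
    rw [hxy] at h2
    refine ⟨x % 2, m, R', Int.emod_two_eq x, fun h => ?_,
      (iso_of_congr ((h1.trans h2).trans h3)).trans (iso_bord_plane _ _)⟩
    exact Int.not_even_iff.1 (hx ▸ hodd h)

/-- **An indefinite unimodular form is `(0 1; 1 b) ⊕ M`.** -/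
theorem exists_split {A : Matrix ι ι ℤ} (hA : Unimodular A) (hi : Indefinite A) :
    ∃ (b : ℤ) (k : ℕ) (M : Matrix (Fin k) (Fin k) ℤ),
      (b = 0 ∨ b = 1) ∧ (¬ EvenForm A → b = 1) ∧ (EvenForm A → b = 0 ∧ EvenForm M) ∧
        Unimodular M ∧ Iso A (dsum (hyp b) M) := by
  obtain ⟨B, hB⟩ := exists_iso_fin A
  obtain ⟨m, hm⟩ : ∃ m, Fintype.card ι = m + 1 := by
    obtain ⟨x, hx⟩ := hi.1
    refine Nat.exists_eq_add_one.2 (Fintype.card_pos_iff.2 ?_)
    by_contra h
    rw [not_nonempty_iff] at h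
    simp [val, dotProduct] at hx
  have hC := hB.trans (iso_submatrix B (finCongr hm.symm))
  obtain ⟨b, k, M, hb, hodd, hs⟩ :=
    exists_split_fin (hC.unimodular hA) (exists_isotropic (hC.unimodular hA) (hC.indefinite hi))
  have hs' := hC.trans hs
  refine ⟨b, k, M, hb, fun h => hodd (by rwa [← hC.evenForm_iff]), fun h => ?_,
    (unimodular_of_dsum (hs'.unimodular hA)).2, hs'⟩
  obtain ⟨h1, h2⟩ := evenForm_dsum_iff.1 (hs'.evenForm h)
  refine ⟨hb.resolve_right ?_, h2⟩
  rintro rfl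
  exact not_evenForm_hyp_one h1

/-- Diagonalisable with signs. -/
def SignDiag (A : Matrix ι ι ℤ) : Prop :=
  ∃ (m : ℕ) (d : Fin m → ℤ), (∀ i, d i = 1 ∨ d i = -1) ∧ Iso A (diagonal d)

theorem signDiag_diagonal (d : ι → ℤ) (hd : ∀ i, d i = 1 ∨ d i = -1) : SignDiag (diagonal d) :=
  ⟨_, fun i => d ((Fintype.equivFin ι).symm i), fun i => hd _, by
    have h := iso_submatrix (diagonal d) (Fintype.equivFin ι).symm
    rwa [submatrix_diagonal_equiv] at h⟩

theorem SignDiag.of_iso {A : Matrix ι ι ℤ} {B : Matrix κ κ ℤ} (h : Iso A B) (hB : SignDiag B) :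
    SignDiag A :=
  let ⟨m, d, hd, he⟩ := hB
  ⟨m, d, hd, h.trans he⟩

theorem SignDiag.dsum {A : Matrix ι ι ℤ} {B : Matrix κ κ ℤ} (hA : SignDiag A) (hB : SignDiag B) :
    SignDiag (IndefiniteUnimodular.dsum A B) := by
  obtain ⟨m, d, hd, he⟩ := hA
  obtain ⟨m', d', hd', he'⟩ := hB
  refine SignDiag.of_iso (he.dsum he') ?_
  rw [IndefiniteUnimodular.dsum, fromBlocks_diagonal]
  exact signDiag_diagonal _ fun i => by rcases i with i | i <;> simp [hd, hd']

theorem signDiag_line {a : ℤ} (ha : a = 1 ∨ a = -1) : SignDiag (line a) :=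
  signDiag_diagonal _ fun _ => ha

theorem not_evenForm_line {a : ℤ} (ha : a = 1 ∨ a = -1) : ¬ EvenForm (line a) := fun h => by
  have := h ![1]
  rcases ha with rfl | rfl <;> simp [val_line] at this

theorem iso_hyp_one : Iso (hyp 1) (dsum (line 1) (line (-1))) := by
  refine ⟨Matrix.of fun i => Sum.elim (fun _ => ![0, 1] i) fun _ => ![-1, 1] i,
    Matrix.of (Sum.elim (fun _ => ![1, 1]) fun _ => ![-1, 0]), ?_, ?_, ?_⟩
  · ext i j
    fin_cases i <;> fin_cases j <;> simp [Matrix.mul_apply]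
  · ext i j
    rcases i with i | i <;> rcases j with j | j <;> fin_cases i <;> fin_cases j <;>
      simp [Matrix.mul_apply]
  · ext i j
    rcases i with i | i <;> rcases j with j | j <;> fin_cases i <;> fin_cases j <;>
      simp [Matrix.mul_apply, dsum, line, hyp]

theorem signDiag_hyp_one : SignDiag (hyp 1) :=
  SignDiag.of_iso iso_hyp_one ((signDiag_line (.inl rfl)).dsum (signDiag_line (.inr rfl)))

/-- **An odd indefinite unimodular form is a diagonal of signs.** -/
theorem signDiag_of_odd : ∀ n : ℕ, ∀ A : Matrix (Fin n) (Fin n) ℤ,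
    Unimodular A → Indefinite A → ¬ EvenForm A → SignDiag A := by
  intro n
  induction n using Nat.strong_induction_on with
  | _ n ih =>
    intro A hA hi ho
    obtain ⟨b, k, M, -, hb, -, hM, hs⟩ := exists_split hA hi
    rw [hb ho] at hs
    have hcard : n = 2 + k := by simpa using hs.card_eq
    rcases Nat.eq_zero_or_pos k with rfl | hk
    · refine SignDiag.of_iso hs (signDiag_hyp_one.dsum ⟨0, Fin.elim0, fun i => i.elim0, ?_⟩)
      exact iso_submatrix' M _ (Equiv.refl _) fun i => i.elim0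
    · have : Nonempty (Fin k) := ⟨⟨0, hk⟩⟩
      obtain ⟨x, hx⟩ := exists_val_ne_zero hM
      obtain ⟨a, c, ha, hc, hac, hind⟩ : ∃ a c : ℤ, (a = 1 ∨ a = -1) ∧ (c = 1 ∨ c = -1) ∧
          Iso (hyp 1) (dsum (line a) (line c)) ∧ Indefinite (dsum (line c) M) := by
        rcases lt_or_gt_of_ne hx with hx | hx
        · exact ⟨-1, 1, .inr rfl, .inl rfl, iso_hyp_one.trans (iso_dsum_comm _ _),
            ⟨Sum.elim ![1] 0, by simp [val_dsum, val_line]⟩,
            ⟨Sum.elim 0 x, by simpa [val_dsum] using hx⟩⟩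
        · exact ⟨1, -1, .inl rfl, .inr rfl, iso_hyp_one,
            ⟨Sum.elim 0 x, by simpa [val_dsum] using hx⟩,
            ⟨Sum.elim ![1] 0, by simp [val_dsum, val_line]⟩⟩
      have hs' := hs.trans ((hac.dsum (Iso.refl M)).trans (iso_dsum_assoc _ _ _))
      obtain ⟨B, hB⟩ := exists_iso_fin (dsum (line c) M)
      have hrec : SignDiag B := ih _ (by simp; omega) B
        (hB.unimodular ((unimodular_line hc).dsum hM)) (hB.indefinite hind)
        fun h => not_evenForm_line hc (evenForm_dsum_iff.1 (hB.evenForm_iff.2 h)).1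
      exact SignDiag.of_iso hs' ((signDiag_line ha).dsum (SignDiag.of_iso hB hrec))

theorem signDiag_of_indefinite_odd {A : Matrix ι ι ℤ} (hA : Unimodular A) (hi : Indefinite A)
    (ho : ¬ EvenForm A) : SignDiag A := by
  obtain ⟨B, hB⟩ := exists_iso_fin A
  exact SignDiag.of_iso hB (signDiag_of_odd _ B (hB.unimodular hA) (hB.indefinite hi)
    fun h => ho (hB.evenForm_iff.2 h))

end FA.IndefiniteUnimodular
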